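import Fermat.Agent.S36.Mod.Key
import Fermat.Agent.S36.Mod.Disc.Glue

/-!
# S36 / Mod / Chart / Pack : `Chart.Extra` and `R.TowerF` of the chart of a `QData`, from the remaining inputs

* `QData.extra`  : `notField`, `algClosed`, the four finiteness statements come from `Chart/Fin.lean`; `unr1`, `unr2` are hypotheses (helper64, `Unr/`).
* `QData.towerF` : degrees are hypotheses, `db1`, `db2` come from a `Val.Setup.XData` with `x1 = b0 t` (`Disc/Glue.lean`), `nm1`, `nm2` from `Chart/Lift.lean`.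
-/

set_option autoImplicit false

open Polynomial

namespace Fermat.Agent.S36.Mod

open Fermat.Agent.Crux.G Fermat.Agent.Crux.G.QLink Fermat.Agent.S36.Val Fermat.Agent.S36.R
  Fermat.Agent.S36.Norm

variable {l : ℕ} {K F0 F1 F2 Ω O κ Ω1 O1 ι μ : Type*} [Field K] [Field F0] [Field F1]
    [Field F2] [Field Ω] [CommRing O] [Field κ] [Field Ω1] [CommRing O1] [Fintype ι]
    [Fintype μ]
variable {A E : Type*} [CommRing A] [IsDomain A] [IsDiscreteValuationRing A] [Field E] [CharZero E]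
    [Algebra A E] [Algebra E F0] [Algebra E F1] [Algebra E F2] [Algebra A F0] [Algebra A F1]
    [Algebra A F2] [IsScalarTower A E F0] [IsScalarTower A E F1] [IsScalarTower A E F2]
    [FiniteDimensional E F0] [FiniteDimensional E F1] [FiniteDimensional E F2]

variable {S : Setup l K F0 F1 F2 Ω O κ Ω1 O1 ι μ} {i₀ : ι} {b0 : F0 →+* F1}
    {w1 : F1 →+* F1} {w2 : F2 →+* F2} {π : A} {t : E}

namespace QData

variable (D : QData S i₀ b0 w1 w2 π t)

/-- **`Chart.Extra` of a `QData`.** -/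
theorem extra (hl : 2 ≤ l) {k : Type*} [Field k] [IsAlgClosed k] [Algebra k κ] (r : A →+* k)
    (hr : Function.Surjective r) (hrπ : r π = 0)
    (hA : ∀ a : A, S.R.Res (algebraMap A F0 a) (algebraMap k κ (r a)))
    (hw1a : ∀ f, w1 (S.a0 f) = b0 f) (hw1 : ∀ f, w1 (w1 f) = f)
    (hw2a : ∀ g, w2 (S.al g) = S.be (w1 g)) (hw2 : ∀ f, w2 (w2 f) = f)
    (unr1 : ∀ z : Ideal (Mx A F1 t).toSubring, z.IsMaximal → (D.chart.m1 hl).Thru z 0 →
      (D.chart.m1 hl).Thru z 1 →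
      ∀ 𝔮 : Ideal (Mx A F0 t).toSubring, 𝔮.IsPrime → 𝔮 ≤ z.comap D.chart.α → D.chart.pi ∉ 𝔮 →
        ∀ y : (Mx A F1 t).toSubring, y ^ 2 ∈ 𝔮.map D.chart.α →
          ∃ s, s ∉ 𝔮 ∧ D.chart.α s * y ∈ 𝔮.map D.chart.α)
    (unr2 : ∀ z : Ideal (Mx A F1 t).toSubring, z.IsMaximal → (D.chart.m1 hl).Thru z 0 →
      ¬ (D.chart.m1 hl).Thru z 1 →
      ∀ 𝔮 : Ideal (Mx A F1 t).toSubring, 𝔮.IsPrime → 𝔮 ≤ z → D.chart.α D.chart.pi ∉ 𝔮 →
        ∀ y : (Mx A F2 t).toSubring, y ^ 2 ∈ 𝔮.map D.chart.p1 →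
          ∃ s, s ∉ 𝔮 ∧ D.chart.p1 s * y ∈ 𝔮.map D.chart.p1) :
    D.chart.Extra hl where
  notField := D.notField r hr hrπ hA
  algClosed := fun 𝔫 _ => D.algClosed r hr hrπ hA 𝔫
  α_fin := D.α_fin
  β_fin := D.β_fin hw1a hw1
  p1_fin := D.p1_fin
  p2_fin := D.p2_fin hw1 hw2a hw2
  unr1 := unr1
  unr2 := unr2

/-- `M_i` is integrally closed in `F_i`, elementwise. -/
theorem Pack_hic {F : Type*} [Field F] [Algebra E F] [Algebra A F] [IsScalarTower A E F]
    [FiniteDimensional E F] (ht : Transcendental A t)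
    (hgen : ∀ c : E, ∃ p q : A[X], q ≠ 0 ∧ c * aeval t q = aeval t p) (f : F)
    (hf : (Mx A F t).toSubring.subtype.IsIntegralElem f) : f ∈ (Mx A F t).toSubring := by
  haveI := Mx_isIntegrallyClosed (F := F) ht hgen
  haveI := Mx_isFractionRing (F := F) ht hgen
  have h : IsIntegral (Mx A F t).toSubring f := hf
  obtain ⟨y, hy⟩ := IsIntegrallyClosed.isIntegral_iff.mp h
  rw [← hy]
  exact y.2

/-- **`R.TowerF` of a `QData`.** -/
theorem towerF (hl : 2 ≤ l) (X : D.chart.Extra hl) [CharZero F0] [CharZero F1] (XD : S.XData)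
    (hx1 : XD.x1 = b0 (algebraMap E F0 t)) (finB : FinHom S.be) (degB : degHom S.be = l) :
    TowerF l (D.chart.tower hl X) S.a0 S.al S.be := by
  haveI := Mx_isIntegrallyClosed (F := F1) D.ht D.hgen
  haveI := Mx_isFractionRing (F := F1) D.ht D.hgen
  have hmem : XD.x1 ∈ (Mx A F1 t).toSubring := by rw [hx1]; exact D.int_b0t
  refine D.chart.towerF hl X XD.deg0 XD.degA degB ?_ ?_ ?_ ?_
  · exact D.chart.db1_of_xdata hl XD hmem (Pack_hic D.ht D.hgen)
      (Chart.Lift_isIntegralElem S.a0 _ _ D.chart.α (fun _ => rfl) X.α_fin ⟨XD.x1, hmem⟩)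
  · exact D.chart.db2_of_xdata hl XD hmem (Pack_hic D.ht D.hgen)
      (Chart.Lift_isIntegralElem S.al _ _ D.chart.p1 (fun _ => rfl) X.p1_fin
        ⟨S.be XD.x1, D.chart.be_mem _ hmem⟩)
  · exact D.chart.nm1 hl XD.finA X.p1_fin
  · exact D.chart.nm2 hl finB X.p2_fin

end QData

end Fermat.Agent.S36.Mod
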