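import Fermat.Agent.S36.Val.Coords
import Fermat.Agent.S36.R.Defs

/-!
# S36 / Mod / Chart / Defs : from `Val.Setup` + a chart `(M0, M1, M2)` to the data of `R.Tower`

`S : Val.Setup ..` (helper97) = the three fields `F0 → F1 → F2` with their vertical places.
A CHART is a triple of subrings `M_i ⊆ F_i` (in the application `M_i = Mx A F_i t` = integral closure of `A[t]`, `t = x` or `x⁻¹`).
`Chart S i₀ b0 w1 w2 M0 M1 M2` lists what is needed to build `R.Tower` (all statements are about residues at the places of `S`).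

* `b0 : F0 → F1` is `f(q) ↦ f(q^l)` (missing in `Val.Setup`), `w1`, `w2` the Atkin-Lehner involutions.
* `resHom P M h : M →+* κ` the residue homomorphism of an `APlace`.
* `Chart.Rr = resHom(M0)` (a subring of `κ = k((q))`), `Chart.ρ0, ρ1, ρ2`, `Chart.Fr`, `Chart.α β p1 p2`, `Chart.pi`.
-/

set_option autoImplicit false

namespace Fermat.Agent.S36.Mod

open Fermat.Agent.Crux.G.QLink Fermat.Agent.S36.Val Fermat.Agent.S36.R

section resHom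

variable {F κ : Type*} [Field F] [Field κ]

/-- the residue homomorphism of a place on a subring of integral elements. -/
noncomputable def resHom (P : APlace F κ) (M : Subring F) (h : ∀ f ∈ M, ∃ c, P.Res f c) :
    M →+* κ where
  toFun f := (h f.1 f.2).choose
  map_one' := P.res_unique (h _ (1 : M).2).choose_spec P.res_one
  map_mul' a b := P.res_unique (h _ (a * b).2).choose_spec
    (P.res_mul (h _ a.2).choose_spec (h _ b.2).choose_spec)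
  map_zero' := P.res_unique (h _ (0 : M).2).choose_spec P.res_zero
  map_add' a b := P.res_unique (h _ (a + b).2).choose_spec
    (P.res_add (h _ a.2).choose_spec (h _ b.2).choose_spec)

theorem resHom_spec (P : APlace F κ) (M : Subring F) (h : ∀ f ∈ M, ∃ c, P.Res f c) (f : M) :
    P.Res (f : F) (resHom P M h f) := (h f.1 f.2).choose_spec

theorem resHom_eq_iff (P : APlace F κ) (M : Subring F) (h : ∀ f ∈ M, ∃ c, P.Res f c) (f : M)
    (c : κ) : resHom P M h f = c ↔ P.Res (f : F) c :=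
  ⟨fun e => e ▸ resHom_spec P M h f, fun e => P.res_unique (resHom_spec P M h f) e⟩

end resHom

variable {l : ℕ} {K F0 F1 F2 Ω O κ Ω1 O1 ι μ : Type*} [Field K] [Field F0] [Field F1]
    [Field F2] [Field Ω] [CommRing O] [Field κ] [Field Ω1] [CommRing O1] [Fintype ι]
    [Fintype μ]

/-- **A chart of the tower.** -/
structure Chart (S : Setup l K F0 F1 F2 Ω O κ Ω1 O1 ι μ) (i₀ : ι) (b0 : F0 →+* F1)
    (w1 : F1 →+* F1) (w2 : F2 →+* F2)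
    (M0 : Subring F0) (M1 : Subring F1) (M2 : Subring F2) : Prop where
  -- `b0`, `w1`, `w2`
  Ψinf_b0 : ∀ c, S.Ψinf (b0 c) = S.V (S.Φ' c)
  Ψ0_b0 : ∀ c, S.Ψ0 (b0 c) = S.Φ' c
  al_b0 : ∀ c, S.al (b0 c) = S.be (S.a0 c)
  b0_cst : ∀ c, b0 (S.cst c) = S.a0 (S.cst c)
  Ψ0_eq : ∀ f, S.Ψ0 f = S.Ψinf (w1 f)
  Φ0_eq : ∀ f, S.Φ0 f = S.Φinf (w2 f)
  -- the maps respect the chart
  a0_mem : ∀ f ∈ M0, S.a0 f ∈ M1
  b0_mem : ∀ f ∈ M0, b0 f ∈ M1
  al_mem : ∀ f ∈ M1, S.al f ∈ M2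
  be_mem : ∀ f ∈ M1, S.be f ∈ M2
  w1_mem : ∀ f ∈ M1, w1 f ∈ M1
  w2_mem : ∀ f ∈ M2, w2 f ∈ M2
  π_mem : S.cst S.π ∈ M0
  -- the chart is integral at the vertical places
  int0 : ∀ f ∈ M0, ∃ c, S.R.Res f c
  int1inf : ∀ f ∈ M1, ∃ c, S.Qinf.Res f c
  int2inf : ∀ f ∈ M2, ∃ c, S.Pinf.Res f c
  int2mid : ∀ f ∈ M2, ∃ c, (S.Pm i₀).Res f c
  -- saturation (`M = O_F ∩ M[1/π]`)
  sat0 : ∀ f ∈ M0, InV S.inc S.red (S.Φ' (f / S.cst S.π)) → f / S.cst S.π ∈ M0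
  sat1 : ∀ f ∈ M1, S.Int2 (f / S.a0 (S.cst S.π)) → f / S.a0 (S.cst S.π) ∈ M1
  sat2 : ∀ f ∈ M2, S.Int3 i₀ (f / S.c2 S.π) → f / S.c2 S.π ∈ M2
  -- residue degree one + normality of the reduction of `M0`
  res1inf : ∀ f ∈ M1, ∀ c, S.Qinf.Res f c → ∃ g ∈ M0, S.R.Res g c
  res2inf : ∀ f ∈ M2, ∀ c, S.Pinf.Res f c → ∃ g ∈ M0, S.R.Res g c
  res2mid : ∀ f ∈ M2, ∀ c, (S.Pm i₀).Res f c → ∃ g ∈ M0, S.R.Res g c
  -- an element with residue in `𝔽_l((q))`, not a constant (the coordinate, or its inverse)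
  exX : ∃ x ∈ M0, ∃ c, S.R.Res x c ∧ S.Vκ c = c ^ l ∧ ∀ k : ℕ, 1 < k → c ^ k ≠ c
  -- `R^l ⊆ V_l (R)`
  insep : ∀ g ∈ M0, ∀ c, S.R.Res g c → ∃ g' ∈ M0, ∃ c', S.R.Res g' c' ∧ S.Vκ c' = c ^ l
  hchar : ∀ n : ℕ, n ≠ 0 → ∃ (k : ℕ), ∃ u ∈ M0, (n : F0) * u = S.cst S.π ^ k

namespace Chart

variable {S : Setup l K F0 F1 F2 Ω O κ Ω1 O1 ι μ} {i₀ : ι} {b0 : F0 →+* F1}
    {w1 : F1 →+* F1} {w2 : F2 →+* F2}
    {M0 : Subring F0} {M1 : Subring F1} {M2 : Subring F2}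
    (C : Chart S i₀ b0 w1 w2 M0 M1 M2)

include C

theorem int10 : ∀ f ∈ M1, ∃ c, S.Q0.Res f c := by
  intro f hf
  obtain ⟨c, hc⟩ := C.int1inf _ (C.w1_mem f hf)
  refine ⟨c, ?_⟩
  change IsRes S.inc S.red (S.Ψ0 f) c
  rw [C.Ψ0_eq]
  exact hc

theorem int20 : ∀ f ∈ M2, ∃ c, S.P0.Res f c := by
  intro f hf
  obtain ⟨c, hc⟩ := C.int2inf _ (C.w2_mem f hf)
  refine ⟨c, ?_⟩
  change IsRes S.inc S.red (S.Φ0 f) c
  rw [C.Φ0_eq]
  exact hc

theorem res10 : ∀ f ∈ M1, ∀ c, S.Q0.Res f c → ∃ g ∈ M0, S.R.Res g c := by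
  intro f hf c hc
  refine C.res1inf _ (C.w1_mem f hf) c ?_
  change IsRes S.inc S.red (S.Ψinf (w1 f)) c
  rw [← C.Ψ0_eq]
  exact hc

theorem res20 : ∀ f ∈ M2, ∀ c, S.P0.Res f c → ∃ g ∈ M0, S.R.Res g c := by
  intro f hf c hc
  refine C.res2inf _ (C.w2_mem f hf) c ?_
  change IsRes S.inc S.red (S.Φinf (w2 f)) c
  rw [← C.Φ0_eq]
  exact hc

/-- the raw reduction of `M0`. -/
noncomputable def r0 : M0 →+* κ := resHom S.R M0 C.int0

/-- the raw reductions of `M1` (`0 = ∞`, `1 = 0`). -/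
noncomputable def r1 : Fin 2 → M1 →+* κ
  | 0 => resHom S.Qinf M1 C.int1inf
  | 1 => resHom S.Q0 M1 C.int10

/-- the raw reductions of `M2` (`0 = ∞`, `1 = mid`, `2 = 0`). -/
noncomputable def r2 : Fin 3 → M2 →+* κ
  | 0 => resHom S.Pinf M2 C.int2inf
  | 1 => resHom (S.Pm i₀) M2 C.int2mid
  | 2 => resHom S.P0 M2 C.int20

theorem res_r0 (f : M0) : S.R.Res (f : F0) (C.r0 f) := resHom_spec _ _ _ f
theorem res_r1_0 (f : M1) : S.Qinf.Res (f : F1) (C.r1 0 f) := resHom_spec _ _ C.int1inf f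
theorem res_r1_1 (f : M1) : S.Q0.Res (f : F1) (C.r1 1 f) := resHom_spec _ _ C.int10 f
theorem res_r2_0 (f : M2) : S.Pinf.Res (f : F2) (C.r2 0 f) := resHom_spec _ _ C.int2inf f
theorem res_r2_1 (f : M2) : (S.Pm i₀).Res (f : F2) (C.r2 1 f) := resHom_spec _ _ C.int2mid f
theorem res_r2_2 (f : M2) : S.P0.Res (f : F2) (C.r2 2 f) := resHom_spec _ _ C.int20 f

/-- `R = red (M0) ⊆ κ`. -/
noncomputable def Rr : Subring κ := C.r0.range

theorem r1_mem (c : Fin 2) (f : M1) : C.r1 c f ∈ C.Rr := by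
  have key : ∀ d : κ, (∃ g ∈ M0, S.R.Res g d) → d ∈ C.Rr := by
    rintro d ⟨g, hg, hd⟩
    exact ⟨⟨g, hg⟩, (resHom_eq_iff _ _ _ _ _).2 hd⟩
  fin_cases c
  · exact key _ (C.res1inf _ f.2 _ (C.res_r1_0 f))
  · exact key _ (C.res10 _ f.2 _ (C.res_r1_1 f))

theorem r2_mem (c : Fin 3) (f : M2) : C.r2 c f ∈ C.Rr := by
  have key : ∀ d : κ, (∃ g ∈ M0, S.R.Res g d) → d ∈ C.Rr := by
    rintro d ⟨g, hg, hd⟩
    exact ⟨⟨g, hg⟩, (resHom_eq_iff _ _ _ _ _).2 hd⟩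
  fin_cases c
  · exact key _ (C.res2inf _ f.2 _ (C.res_r2_0 f))
  · exact key _ (C.res2mid _ f.2 _ (C.res_r2_1 f))
  · exact key _ (C.res20 _ f.2 _ (C.res_r2_2 f))

/-- the reductions, with values in `R`. -/
noncomputable def ρ0 : M0 →+* C.Rr := C.r0.rangeRestrict
noncomputable def ρ1 (c : Fin 2) : M1 →+* C.Rr := (C.r1 c).codRestrict C.Rr (C.r1_mem c)
noncomputable def ρ2 (c : Fin 3) : M2 →+* C.Rr := (C.r2 c).codRestrict C.Rr (C.r2_mem c)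

theorem coe_ρ0 (f : M0) : ((C.ρ0 f : C.Rr) : κ) = C.r0 f := rfl
theorem coe_ρ1 (c : Fin 2) (f : M1) : ((C.ρ1 c f : C.Rr) : κ) = C.r1 c f := rfl
theorem coe_ρ2 (c : Fin 3) (f : M2) : ((C.ρ2 c f : C.Rr) : κ) = C.r2 c f := rfl

/-- the maps of the tower. -/
noncomputable def α : M0 →+* M1 := (S.a0.comp M0.subtype).codRestrict M1 fun f => C.a0_mem _ f.2
noncomputable def β : M0 →+* M1 := (b0.comp M0.subtype).codRestrict M1 fun f => C.b0_mem _ f.2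
noncomputable def p1 : M1 →+* M2 := (S.al.comp M1.subtype).codRestrict M2 fun f => C.al_mem _ f.2
noncomputable def p2 : M1 →+* M2 := (S.be.comp M1.subtype).codRestrict M2 fun f => C.be_mem _ f.2

theorem coe_α (f : M0) : ((C.α f : M1) : F1) = S.a0 f := rfl
theorem coe_β (f : M0) : ((C.β f : M1) : F1) = b0 f := rfl
theorem coe_p1 (f : M1) : ((C.p1 f : M2) : F2) = S.al f := rfl
theorem coe_p2 (f : M1) : ((C.p2 f : M2) : F2) = S.be f := rfl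

/-- the uniformiser. -/
def pi : M0 := ⟨S.cst S.π, C.π_mem⟩

theorem coe_pi : (C.pi : F0) = S.cst S.π := rfl

/-- `V_l` maps `R` to `R` (`V (red g) = red_∞ (b0 g)`). -/
theorem Vκ_mem (r : C.Rr) : S.Vκ (r : κ) ∈ C.Rr := by
  obtain ⟨g, hg⟩ := r.2
  have h1 : S.Qinf.Res (C.β g : F1) (S.Vκ (C.r0 g)) := by
    change IsRes S.inc S.red (S.Ψinf (b0 g)) _
    rw [C.Ψinf_b0]
    exact S.hV.isRes (C.res_r0 g)
  have h2 : C.r1 0 (C.β g) = S.Vκ (C.r0 g) := S.Qinf.res_unique (C.res_r1_0 _) h1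
  rw [← hg, ← h2]
  exact C.r1_mem 0 _

/-- `Fr = V_l` on `R`. -/
noncomputable def Fr : C.Rr →+* C.Rr := (S.Vκ.comp C.Rr.subtype).codRestrict C.Rr C.Vκ_mem

theorem coe_Fr (r : C.Rr) : ((C.Fr r : C.Rr) : κ) = S.Vκ r := rfl

end Chart

end Fermat.Agent.S36.Mod
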