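import Fermat.Agent.S36.Mod.Chart.Of

/-!
# S36 / Mod / Chart / Fin : finiteness, noetherianity, fraction fields of `Mx A F t`; `R` is Dedekind with algebraically closed residue fields
   (tasks `S36/CF-Mx`, `S36/CF-fin`, `S36/CF-alg`, `S36/CF-ded`)

PROOFS.
* (Mx) `letI := algE (A := A) t; letI := algL (A := A) F t; haveI := isScalarTower_alg (A := A) (L := F) t; haveI := isFractionRing_algE ht hgen`
  (as in `Crux/G/Main.lean`, `intX_of_smul`).  `A[X]` is noetherian and integrally closed (`A` is a DVR: UFD), `F/E` finite separable (char. 0), and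
  `Mx A F t` has the same carrier as `integralClosure A[X] F`: `IsIntegralClosure.finite`/`IsIntegralClosure.isNoetherian A[X] E F (integralClosure A[X] F)`,
  `integralClosure.isFractionRing_of_finite_extension E F`.  Transport along the identity of carriers (a `RingEquiv` which is the identity on `F`,
  or prove the elementwise statements `exists_finset_span`, and `IsFractionRing` by `IsFractionRing.of_field`-type criterion:
  every `y : F` is `a / b`, `a, b ∈ Mx`: `exists_integral_multiple`).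
* (fin) `α_fin`: `exists_finset_span` for `F1`: coefficients `c b (t) ∈ A[t] ⊆ α(M0)`.  `RingHom.Finite` = `Module.Finite` for `α.toAlgebra`: `Module.Finite.of_fg`/`⟨⟨s, _⟩⟩`.
  `p1_fin`: the same.  `β_fin`: `β f = w1 (α f)`, `w1` is a bijection of `M1` (`w1_mem`, `hw1`): generators `w1 b`.
  `p2_fin`: `be g = w2 (al (w1 g))`: generators `w2 b`.
* (alg) `R = D.chart.Rr`; `tb` = residue of `t`.  Every element of `R` is integral over `k[tb]` (reduce the monic equation: the residue of `a_i(t)` is `ā_i(tb)`, induction on polynomials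
  from `res_A`, `res_t`); `tb` is transcendental over `k` (`res_s`: lift a polynomial `p ≠ 0` over `k` to `s ∈ A[X]` with `¬ C π ∣ s` (`hr`); its residue is `p(tb)`).
  `notField`: `isField_of_isIntegral_of_isField` (or by hand): `k[tb] ≅ k[X]` would be a field (`Polynomial.not_isField`).
  `algClosed`: `L = R/𝔫` is a field, integral over the image of `k[tb]`, which is therefore a field, so the image of `tb` is algebraic over `k`, so `L` is algebraic over `k`;
  `IsAlgClosed.algebraMap_bijective_of_isIntegral`; transport (`R.Tower.L1b_isAlgClosed_of_ringEquiv` in `S36/R/Level1.lean`, or `IsAlgClosed.of_ringEquiv`).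
* (ded) noetherian: `isNoetherianRing_of_surjective _ _ D.chart.ρ0 D.chart.ρ0_surj` + (Mx).  Dimension: a nonzero prime `P` of `R` meets `k[tb]` in a nonzero prime
  (`Ideal.comap_ne_bot_of_integral_mem` / constant term of a minimal equation), maximal in `k[X]` (PID), `Ideal.isMaximal_of_isIntegral_of_isMaximal_comap`.
  Integrally closed: `mem_of_isIntegral`: `y = ā / b̄`, `a, b ∈ M0`, `b̄ ≠ 0`; `e = a / b ∈ F0` has residue `y`, `InV`, so `IsOLx e` (`q0`); `y` is integral over `R`, hence over `k[tb]`: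
  lift the monic equation to `P ∈ A[X][X]` monic; `P(e)` has residue `0`: `q0'`, `n0`: `a' ∈ M0`, `IsPiOLx (a' - e)`, `res_of_isPiOLx0`: `y = ` residue of `a'` `∈ R`.
  Then `isIntegrallyClosed_iff (FractionRing R)` and the injection `FractionRing R → κ` (`IsFractionRing.lift`).
-/

set_option autoImplicit false

open Polynomial

namespace Fermat.Agent.S36.Mod

open Fermat.Agent.Crux.G Fermat.Agent.Crux.G.QLink Fermat.Agent.S36.Val Fermat.Agent.S36.R

/-! ### (Mx)  task `S36/CF-Mx` -/

section Mx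

variable {A E F : Type*} [CommRing A] [IsDomain A] [IsDiscreteValuationRing A] [Field E] [CharZero E]
    [Field F] [Algebra A E] [Algebra E F] [Algebra A F] [IsScalarTower A E F] [FiniteDimensional E F]

theorem Mx_exists_finset_span {t : E} (ht : Transcendental A t)
    (hgen : ∀ c : E, ∃ p q : A[X], q ≠ 0 ∧ c * aeval t q = aeval t p) :
    ∃ s : Finset F, (∀ b ∈ s, IntX A t b) ∧ ∀ y : F, IntX A t y →
      ∃ c : F → A[X], y = ∑ b ∈ s, algebraMap E F (aeval t (c b)) * b := by
  let _ := algE (A := A) t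
  let _ := algL (A := A) F t
  have := isScalarTower_alg (A := A) (L := F) t
  have := isFractionRing_algE ht hgen
  obtain ⟨S, hS⟩ := integralClosure_fg (A := A) E (L := F)
  refine ⟨S, fun b hb => ?_, fun y hy => ?_⟩
  · have : b ∈ Submodule.span A[X] (S : Set F) := Submodule.subset_span hb
    rw [hS] at this
    exact this
  · have hy' : y ∈ Submodule.span A[X] (S : Set F) := by
      rw [hS]; exact hy
    obtain ⟨c, -, hc⟩ := Submodule.mem_span_finset.1 hy'
    refine ⟨c, ?_⟩
    rw [← hc]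
    refine Finset.sum_congr rfl fun b _ => ?_
    rw [Algebra.smul_def]
    rfl

theorem Mx_isNoetherianRing {t : E} (ht : Transcendental A t)
    (hgen : ∀ c : E, ∃ p q : A[X], q ≠ 0 ∧ c * aeval t q = aeval t p) :
    IsNoetherianRing (Mx A F t).toSubring := by
  let _ := algE (A := A) t
  let _ := algL (A := A) F t
  have := isScalarTower_alg (A := A) (L := F) t
  have := isFractionRing_algE ht hgen
  have h : IsNoetherian A[X] (integralClosure A[X] F) :=
    IsIntegralClosure.isNoetherian A[X] E F (integralClosure A[X] F)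
  have h2 : IsNoetherianRing (integralClosure A[X] F) :=
    isNoetherian_of_tower A[X] h
  let e : (integralClosure A[X] F) ≃+* (Mx A F t).toSubring :=
    { toFun := fun y => ⟨y.1, y.2⟩
      invFun := fun y => ⟨y.1, y.2⟩
      left_inv := fun _ => rfl
      right_inv := fun _ => rfl
      map_mul' := fun _ _ => rfl
      map_add' := fun _ _ => rfl }
  exact isNoetherianRing_of_ringEquiv _ e

theorem Mx_isFractionRing {t : E} (ht : Transcendental A t)
    (hgen : ∀ c : E, ∃ p q : A[X], q ≠ 0 ∧ c * aeval t q = aeval t p) :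
    IsFractionRing (Mx A F t).toSubring F := by
  let _ := algE (A := A) t
  let _ := algL (A := A) F t
  have := isScalarTower_alg (A := A) (L := F) t
  have := isFractionRing_algE ht hgen
  have h : IsFractionRing (integralClosure A[X] F) F :=
    integralClosure.isFractionRing_of_finite_extension E F
  have : FaithfulSMul (Mx A F t).toSubring F :=
    (faithfulSMul_iff_algebraMap_injective _ _).2 Subtype.val_injective
  refine IsFractionRing.of_field _ _ fun z => ?_
  obtain ⟨a, b, hb, hab⟩ := IsFractionRing.div_surjective (A := integralClosure A[X] F) z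
  exact ⟨⟨a.1, a.2⟩, ⟨b.1, b.2⟩, hab.symm⟩

end Mx

/-! helpers of task `S36/CF-fin` -/

theorem CFfin_finite {F F' : Type*} [Field F] [Field F'] {M : Subring F} {M' : Subring F'}
    (φ : M →+* M') (s : Finset F') (v : F' → F') (hv : ∀ b ∈ s, v b ∈ M')
    (h : ∀ y ∈ M', ∃ m : F' → M, y = ∑ b ∈ s, ((φ (m b) : M') : F') * v b) : φ.Finite := by
  letI := φ.toAlgebra
  show Module.Finite M M'
  let w : s → M' := fun b => ⟨v b, hv b b.2⟩
  refine Module.Finite.of_surjective (Fintype.linearCombination M w) ?_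
  intro y
  obtain ⟨m, hm⟩ := h y y.2
  refine ⟨fun b => m b, Subtype.ext ?_⟩
  rw [Fintype.linearCombination_apply, hm, AddSubmonoidClass.coe_finsetSum,
    ← Finset.sum_coe_sort s (fun b => ((φ (m b) : M') : F') * v b)]
  apply Finset.sum_congr rfl
  intro b _
  rw [Algebra.smul_def, RingHom.algebraMap_toAlgebra]
  rfl

theorem CFfin_intX_aeval {A E F : Type*} [CommRing A] [Field E] [Field F] [Algebra A E]
    [Algebra E F] (t : E) (p : A[X]) : IntX A t (algebraMap E F (aeval t p)) := by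
  letI := algL (A := A) F t
  show IsIntegral A[X] (algebraMap A[X] F p)
  exact isIntegral_algebraMap

variable {l : ℕ} {K F0 F1 F2 Ω O κ Ω1 O1 ι μ : Type*} [Field K] [Field F0] [Field F1]
    [Field F2] [Field Ω] [CommRing O] [Field κ] [Field Ω1] [CommRing O1] [Fintype ι]
    [Fintype μ]
variable {A E : Type*} [CommRing A] [IsDomain A] [IsDiscreteValuationRing A] [Field E] [CharZero E]
    [Algebra A E] [Algebra E F0] [Algebra E F1] [Algebra E F2] [Algebra A F0] [Algebra A F1]
    [Algebra A F2] [IsScalarTower A E F0] [IsScalarTower A E F1] [IsScalarTower A E F2]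
    [FiniteDimensional E F0] [FiniteDimensional E F1] [FiniteDimensional E F2]

namespace QData

variable {S : Setup l K F0 F1 F2 Ω O κ Ω1 O1 ι μ} {i₀ : ι} {b0 : F0 →+* F1}
    {w1 : F1 →+* F1} {w2 : F2 →+* F2} {π : A} {t : E} (D : QData S i₀ b0 w1 w2 π t)

/-! ### (fin)  task `S36/CF-fin` -/

theorem α_fin : D.chart.α.Finite := by
  obtain ⟨s, hs, hspan⟩ := Mx_exists_finset_span (F := F1) D.ht D.hgen
  refine CFfin_finite _ s id hs fun y hy => ?_
  obtain ⟨c, hc⟩ := hspan y hy
  refine ⟨fun b => ⟨algebraMap E F0 (aeval t (c b)), CFfin_intX_aeval t (c b)⟩, ?_⟩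
  rw [hc]
  refine Finset.sum_congr rfl fun b _ => ?_
  rw [D.chart.coe_α, id]
  show _ = S.a0 (algebraMap E F0 (aeval t (c b))) * b
  rw [D.a0_E]

theorem p1_fin : D.chart.p1.Finite := by
  obtain ⟨s, hs, hspan⟩ := Mx_exists_finset_span (F := F2) D.ht D.hgen
  refine CFfin_finite _ s id hs fun y hy => ?_
  obtain ⟨c, hc⟩ := hspan y hy
  refine ⟨fun b => ⟨algebraMap E F1 (aeval t (c b)), CFfin_intX_aeval t (c b)⟩, ?_⟩
  rw [hc]
  refine Finset.sum_congr rfl fun b _ => ?_
  rw [D.chart.coe_p1, id]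
  show _ = S.al (algebraMap E F1 (aeval t (c b))) * b
  rw [D.al_E]

theorem β_fin (hw1a : ∀ f, w1 (S.a0 f) = b0 f) (hw1 : ∀ f, w1 (w1 f) = f) : D.chart.β.Finite := by
  obtain ⟨s, hs, hspan⟩ := Mx_exists_finset_span (F := F1) D.ht D.hgen
  refine CFfin_finite _ s w1 (fun b hb => D.w1_mem b (hs b hb)) fun y hy => ?_
  obtain ⟨c, hc⟩ := hspan (w1 y) (D.w1_mem y hy)
  refine ⟨fun b => ⟨algebraMap E F0 (aeval t (c b)), CFfin_intX_aeval t (c b)⟩, ?_⟩
  rw [← hw1 y, hc, map_sum]
  refine Finset.sum_congr rfl fun b _ => ?_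
  rw [D.chart.coe_β, map_mul]
  show _ = b0 (algebraMap E F0 (aeval t (c b))) * w1 b
  rw [← hw1a, D.a0_E]

theorem p2_fin (hw1 : ∀ f, w1 (w1 f) = f) (hw2a : ∀ g, w2 (S.al g) = S.be (w1 g))
    (hw2 : ∀ f, w2 (w2 f) = f) : D.chart.p2.Finite := by
  obtain ⟨s, hs, hspan⟩ := Mx_exists_finset_span (F := F2) D.ht D.hgen
  refine CFfin_finite _ s w2 (fun b hb => D.w2_mem b (hs b hb)) fun y hy => ?_
  obtain ⟨c, hc⟩ := hspan (w2 y) (D.w2_mem y hy)
  refine ⟨fun b => ⟨w1 (algebraMap E F1 (aeval t (c b))),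
    D.w1_mem _ (CFfin_intX_aeval t (c b))⟩, ?_⟩
  rw [← hw2 y, hc, map_sum]
  refine Finset.sum_congr rfl fun b _ => ?_
  rw [D.chart.coe_p2, map_mul]
  show _ = S.be (w1 (algebraMap E F1 (aeval t (c b)))) * w2 b
  rw [← hw2a, D.al_E]

/-! ### the residue field `k` -/

variable {k : Type*} [Field k] [IsAlgClosed k] [Algebra k κ] (r : A →+* k)

/-- residues of polynomial expressions. -/
theorem CFalg_res_eval₂ {F κ' R' : Type*} [Field F] [Field κ'] [CommRing R'] (P : APlace F κ')
    (φ : R' →+* F) (ψ : R' →+* κ') (hφ : ∀ s, P.Res (φ s) (ψ s)) (z : F) (c : κ')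
    (hz : P.Res z c) (q : R'[X]) : P.Res (eval₂ φ z q) (eval₂ ψ c q) := by
  induction q using Polynomial.induction_on' with
  | add p q hp hq =>
    rw [eval₂_add, eval₂_add]
    exact P.res_add hp hq
  | monomial n a =>
    rw [eval₂_monomial, eval₂_monomial]
    exact P.res_mul (hφ a) (P.res_pow hz n)

/-- an integral element over an algebraically closed field lies in it. -/
theorem CFalg_mem_range {k L : Type*} [Field k] [IsAlgClosed k] [Field L] [Algebra k L] (z : L)
    (hz : IsIntegral k z) : ∃ b, algebraMap k L b = z :=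
  minpoly.mem_range_of_degree_eq_one k z
    (IsAlgClosed.degree_eq_one_of_irreducible k (minpoly.irreducible hz))

/-- transport of `IsAlgClosed` along a ring isomorphism (universe polymorphic). -/
theorem CFalg_isAlgClosed_of_ringEquiv {k k' : Type*} [Field k] [Field k'] (e : k ≃+* k')
    [IsAlgClosed k] : IsAlgClosed k' := by
  apply IsAlgClosed.of_exists_root
  intro p hmp hp
  have hpe : Polynomial.degree (p.map e.symm.toRingHom) ≠ 0 := by
    rw [Polynomial.degree_map]
    exact ne_of_gt (Polynomial.degree_pos_of_irreducible hp)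
  rcases IsAlgClosed.exists_root (k := k) (p.map e.symm.toRingHom) hpe with ⟨x, hx⟩
  use e x
  rw [Polynomial.IsRoot] at hx
  apply e.symm.injective
  rw [map_zero, ← hx]
  clear hx hpe hp hmp
  induction p using Polynomial.induction_on <;> simp_all

omit [IsAlgClosed k] in
/-- the residue of `s(t)` is `s̄(tb)`. -/
theorem CFalg_res_aeval
    (hA : ∀ a : A, S.R.Res (algebraMap A F0 a) (algebraMap k κ (r a)))
    (tb : κ) (htb : S.R.Res (algebraMap E F0 t) tb) (s : A[X]) :
    S.R.Res (algebraMap E F0 (aeval t s)) (aeval tb (s.map r)) := by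
  have h1 : algebraMap E F0 (aeval t s) = eval₂ (algebraMap A F0) (algebraMap E F0 t) s := by
    rw [aeval_def, hom_eval₂, ← IsScalarTower.algebraMap_eq]
  have h2 : aeval tb (s.map r) = eval₂ ((algebraMap k κ).comp r) tb s := by
    rw [aeval_def, eval₂_map]
  rw [h1, h2]
  exact CFalg_res_eval₂ S.R _ _ hA _ _ htb s

omit [IsAlgClosed k] in
include D in
/-- `y ∈ R` iff it is the residue of an element of `M0`. -/
theorem CFalg_mem_Rr (y : κ) : y ∈ D.chart.Rr ↔ ∃ g : F0, IntX A t g ∧ S.R.Res g y := by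
  constructor
  · rintro ⟨g, rfl⟩
    exact ⟨g, g.2, D.chart.res_r0 g⟩
  · rintro ⟨g, hg, hy⟩
    exact ⟨⟨g, hg⟩, (resHom_eq_iff _ _ _ _ _).2 hy⟩

omit [IsAlgClosed k] in
/-- `k[tb] ⊆ R`. -/
theorem CFalg_aeval_mem (hr : Function.Surjective r)
    (hA : ∀ a : A, S.R.Res (algebraMap A F0 a) (algebraMap k κ (r a)))
    (tb : κ) (htb : S.R.Res (algebraMap E F0 t) tb) (g : k[X]) : aeval tb g ∈ D.chart.Rr := by
  obtain ⟨s, rfl⟩ := Polynomial.map_surjective r hr g
  exact (D.CFalg_mem_Rr _).2 ⟨_, (intX_iff t _).2 (RingHom.isIntegralElem_map _),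
    CFalg_res_aeval r hA tb htb s⟩

omit [IsAlgClosed k] in
/-- the monic equation over `k[X]`. -/
theorem CFalg_exists_monic
    (hA : ∀ a : A, S.R.Res (algebraMap A F0 a) (algebraMap k κ (r a)))
    (tb : κ) (htb : S.R.Res (algebraMap E F0 t) tb) (y : κ) (hy : y ∈ D.chart.Rr) :
    ∃ P : k[X][X], P.Monic ∧ eval₂ ((aeval tb : k[X] →ₐ[k] κ) : k[X] →+* κ) y P = 0 := by
  obtain ⟨g, hg, hgy⟩ := (D.CFalg_mem_Rr y).1 hy
  obtain ⟨p, hp, hpg⟩ := (intX_iff t g).1 hg
  refine ⟨p.map (mapRingHom r), hp.map _, ?_⟩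
  rw [eval₂_map]
  have h1 := CFalg_res_eval₂ S.R ((algebraMap E F0).comp ((aeval t : A[X] →ₐ[A] E) : A[X] →+* E))
    (((aeval tb : k[X] →ₐ[k] κ) : k[X] →+* κ).comp (mapRingHom r))
    (fun s => CFalg_res_aeval r hA tb htb s) g y hgy p
  rw [hpg] at h1
  exact S.R.res_unique h1 S.R.res_zero

/-- `k[X] → R`. -/
noncomputable def CFalg_φ (hr : Function.Surjective r)
    (hA : ∀ a : A, S.R.Res (algebraMap A F0 a) (algebraMap k κ (r a)))
    (tb : κ) (htb : S.R.Res (algebraMap E F0 t) tb) : k[X] →+* D.chart.Rr :=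
  ((aeval tb : k[X] →ₐ[k] κ) : k[X] →+* κ).codRestrict D.chart.Rr
    (fun g => D.CFalg_aeval_mem r hr hA tb htb g)

omit [IsAlgClosed k] in
theorem CFalg_φ_isIntegral (hr : Function.Surjective r)
    (hA : ∀ a : A, S.R.Res (algebraMap A F0 a) (algebraMap k κ (r a)))
    (tb : κ) (htb : S.R.Res (algebraMap E F0 t) tb) : (D.CFalg_φ r hr hA tb htb).IsIntegral := by
  intro y
  obtain ⟨P, hP, hPy⟩ := D.CFalg_exists_monic r hA tb htb y y.2
  refine ⟨P, hP, ?_⟩
  apply Subtype.ext
  have h1 := hom_eval₂ P (D.CFalg_φ r hr hA tb htb) D.chart.Rr.subtype y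
  exact h1.trans hPy

/-- every element of `R` is integral over `k[tb]`.   (task `S36/CF-alg`) -/
theorem isIntegral_Rr (hr : Function.Surjective r)
    (hA : ∀ a : A, S.R.Res (algebraMap A F0 a) (algebraMap k κ (r a)))
    (tb : κ) (htb : S.R.Res (algebraMap E F0 t) tb) (y : κ) (hy : y ∈ D.chart.Rr) :
    IsIntegral (Algebra.adjoin k {tb}) y := by
  obtain ⟨P, hP, hPy⟩ := D.CFalg_exists_monic r hA tb htb y hy
  let ψ : k[X] →+* Algebra.adjoin k {tb} :=
    ((aeval tb : k[X] →ₐ[k] κ) : k[X] →+* κ).codRestrict (Algebra.adjoin k {tb})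
      (fun g => aeval_mem_adjoin_singleton k tb)
  refine ⟨P.map ψ, hP.map _, ?_⟩
  rw [eval₂_map]
  exact hPy

include D in
/-- (task `S36/CF-alg`) -/
theorem transcendental_tb (hr : Function.Surjective r) (hrπ : r π = 0)
    (hA : ∀ a : A, S.R.Res (algebraMap A F0 a) (algebraMap k κ (r a)))
    (tb : κ) (htb : S.R.Res (algebraMap E F0 t) tb) : Transcendental k tb := by
  rw [transcendental_iff]
  intro p hp
  by_contra hp0
  obtain ⟨s, rfl⟩ := Polynomial.map_surjective r hr p
  have hs : ¬ C π ∣ s := by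
    rintro ⟨s', rfl⟩
    apply hp0
    rw [Polynomial.map_mul, map_C, hrπ, C_0, zero_mul]
  obtain ⟨c, hc0, hc⟩ := D.res_s s hs
  have h1 := CFalg_res_aeval r hA tb htb s
  rw [hp] at h1
  exact hc0 (S.R.res_unique hc h1)

/-- (task `S36/CF-alg`) -/
theorem notField (hr : Function.Surjective r) (hrπ : r π = 0)
    (hA : ∀ a : A, S.R.Res (algebraMap A F0 a) (algebraMap k κ (r a))) :
    ¬ IsField D.chart.Rr := by
  intro hF
  obtain ⟨tb, htb, -⟩ := D.res_t
  have htr := D.transcendental_tb r hr hrπ hA tb htb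
  let _ : Algebra k[X] D.chart.Rr := (D.CFalg_φ r hr hA tb htb).toAlgebra
  have hint : Algebra.IsIntegral k[X] D.chart.Rr := ⟨D.CFalg_φ_isIntegral r hr hA tb htb⟩
  have hinj : Function.Injective (algebraMap k[X] D.chart.Rr) := by
    intro a b hab
    exact (transcendental_iff_injective.1 htr) (congrArg Subtype.val hab)
  exact Polynomial.not_isField k (isField_of_isIntegral_of_isField hinj hF)

/-- (task `S36/CF-alg`) -/
theorem algClosed (hr : Function.Surjective r) (hrπ : r π = 0)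
    (hA : ∀ a : A, S.R.Res (algebraMap A F0 a) (algebraMap k κ (r a)))
    (𝔫 : Ideal D.chart.Rr) [𝔫.IsMaximal] :
    @IsAlgClosed (D.chart.Rr ⧸ 𝔫) (Ideal.Quotient.field 𝔫) := by
  obtain ⟨tb, htb, -⟩ := D.res_t
  let _ := Ideal.Quotient.field 𝔫
  let φ := D.CFalg_φ r hr hA tb htb
  have hφ : φ.IsIntegral := D.CFalg_φ_isIntegral r hr hA tb htb
  let φL : k[X] →+* (D.chart.Rr ⧸ 𝔫) := (Ideal.Quotient.mk 𝔫).comp φ
  let _ : Algebra k (D.chart.Rr ⧸ 𝔫) := (φL.comp C).toAlgebra
  have hmax : (𝔫.comap φ).IsMaximal := Ideal.isMaximal_comap_of_isIntegral_of_isMaximal' φ hφ 𝔫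
  have hbot : 𝔫.comap φ ≠ ⊥ := Ring.ne_bot_of_isMaximal_of_not_isField hmax (Polynomial.not_isField k)
  obtain ⟨f, hf, hf0⟩ := Submodule.exists_mem_ne_zero_of_ne_bot hbot
  have hφL : ∀ g : k[X], φL g = aeval (φL X) g := by
    intro g
    rw [aeval_def]
    have h1 : φL g = eval₂ (φL.comp C) (φL X) g := by
      conv_lhs => rw [← eval₂_C_X (p := g)]
      rw [hom_eval₂]
    exact h1
  have hXint : IsIntegral k (φL X) := by
    apply IsAlgebraic.isIntegral
    refine ⟨f, hf0, ?_⟩
    rw [← hφL]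
    exact Ideal.Quotient.eq_zero_iff_mem.2 hf
  obtain ⟨a, ha⟩ := CFalg_mem_range _ hXint
  have hφL' : ∀ g : k[X], φL g = algebraMap k (D.chart.Rr ⧸ 𝔫) (g.eval a) := by
    intro g
    rw [hφL, ← ha, aeval_algebraMap_apply, coe_aeval_eq_eval]
  have hsurj : Function.Surjective (algebraMap k (D.chart.Rr ⧸ 𝔫)) := by
    intro z
    obtain ⟨y, rfl⟩ := Ideal.Quotient.mk_surjective z
    obtain ⟨P, hP, hPy⟩ := hφ y
    apply CFalg_mem_range
    refine ⟨P.map (evalRingHom a), hP.map _, ?_⟩
    rw [eval₂_map]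
    have h1 : (algebraMap k (D.chart.Rr ⧸ 𝔫)).comp (evalRingHom a) = φL :=
      RingHom.ext fun g => (hφL' g).symm
    rw [h1]
    have h2 := hom_eval₂ P φ (Ideal.Quotient.mk 𝔫) y
    rw [hPy, map_zero] at h2
    exact h2.symm
  exact CFalg_isAlgClosed_of_ringEquiv
    (RingEquiv.ofBijective (algebraMap k (D.chart.Rr ⧸ 𝔫))
      ⟨(algebraMap k (D.chart.Rr ⧸ 𝔫)).injective, hsurj⟩)

/-- residues of polynomial expressions. -/
theorem CFded_res_eval₂ {F κ' R' : Type*} [Field F] [Field κ'] [CommRing R'] (P : APlace F κ')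
    (φ : R' →+* F) (ψ : R' →+* κ') (hφ : ∀ s, P.Res (φ s) (ψ s)) (z : F) (c : κ')
    (hz : P.Res z c) (q : R'[X]) : P.Res (eval₂ φ z q) (eval₂ ψ c q) := by
  induction q using Polynomial.induction_on' with
  | add p q hp hq =>
    rw [eval₂_add, eval₂_add]
    exact P.res_add hp hq
  | monomial n a =>
    rw [eval₂_monomial, eval₂_monomial]
    exact P.res_mul (hφ a) (P.res_pow hz n)

/-- transitivity of integrality through a subring. -/
theorem CFded_isIntegral_trans {R₀ κ' : Type*} [CommRing R₀] [Field κ'] [Algebra R₀ κ']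
    (R : Subring κ') (hR : ∀ x ∈ R, IsIntegral R₀ x) (y : κ') (hy : IsIntegral R y) :
    IsIntegral R₀ y := by
  obtain ⟨Q, hQ, hQy⟩ := hy
  let j : R →+* integralClosure R₀ κ' :=
    (R.subtype).codRestrict (integralClosure R₀ κ') (fun x => hR x x.2)
  have h1 : IsIntegral (integralClosure R₀ κ') y := by
    refine ⟨Q.map j, hQ.map j, ?_⟩
    rw [eval₂_map]
    exact hQy
  exact isIntegral_trans y h1

/-- lifting a monic equation along a surjection on the coefficients. -/
theorem CFded_exists_monic {R' κ' : Type*} [CommRing R'] [Field κ'] (ψ : R' →+* κ')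
    (B : Subring κ') (hB : ∀ z ∈ B, ∃ s, ψ s = z) (y : κ') (hy : IsIntegral B y) :
    ∃ P : R'[X], P.Monic ∧ eval₂ ψ y P = 0 := by
  obtain ⟨Q, hQ, hQy⟩ := hy
  have hl : Q.map (algebraMap B κ') ∈ lifts ψ := by
    rw [lifts_iff_coeff_lifts]
    intro n
    rw [coeff_map]
    obtain ⟨s, hs⟩ := hB _ (Q.coeff n).2
    exact ⟨s, hs⟩
  obtain ⟨P, hP1, -, hP2⟩ := lifts_and_natDegree_eq_and_monic hl (hQ.map _)
  refine ⟨P, hP2, ?_⟩
  rw [eval₂_eq_eval_map, hP1, eval_map]
  exact hQy

/-- normality of the reduction.   (task `S36/CF-ded`) -/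
theorem mem_of_isIntegral (hr : Function.Surjective r) (hrπ : r π = 0)
    (hA : ∀ a : A, S.R.Res (algebraMap A F0 a) (algebraMap k κ (r a)))
    (a b : κ) (ha : a ∈ D.chart.Rr) (hb : b ∈ D.chart.Rr) (hb0 : b ≠ 0)
    (hint : IsIntegral D.chart.Rr (a / b)) : a / b ∈ D.chart.Rr := by
  obtain ⟨tb, htb, -⟩ := D.res_t
  obtain ⟨a₀, rfl⟩ := ha
  obtain ⟨b₀, rfl⟩ := hb
  have hres : S.R.Res ((a₀ : F0) / (b₀ : F0)) (D.chart.r0 a₀ / D.chart.r0 b₀) :=
    S.R.res_div (D.chart.res_r0 a₀) (D.chart.res_r0 b₀) hb0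
  have hOL : IsOLx π t ((a₀ : F0) / (b₀ : F0)) := D.q0 _ (inV_iff.2 ⟨_, hres⟩)
  have hint2 : IsIntegral (Algebra.adjoin k {tb}) (D.chart.r0 a₀ / D.chart.r0 b₀) :=
    CFded_isIntegral_trans D.chart.Rr (fun x hx => D.isIntegral_Rr r hr hA tb htb x hx) _ hint
  have hψ : ∀ s : A[X], S.R.Res (algebraMap E F0 (aeval t s))
      (eval₂RingHom ((algebraMap k κ).comp r) tb s) := by
    intro s
    have h1 : algebraMap E F0 (aeval t s) = eval₂ (algebraMap A F0) (algebraMap E F0 t) s := by
      rw [aeval_def, hom_eval₂, ← IsScalarTower.algebraMap_eq]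
    rw [h1]
    exact CFded_res_eval₂ S.R (algebraMap A F0) ((algebraMap k κ).comp r) hA _ _ htb s
  obtain ⟨P, hP, hPy⟩ := CFded_exists_monic (eval₂RingHom ((algebraMap k κ).comp r) tb)
    (Algebra.adjoin k {tb}).toSubring (by
      intro z hz
      have hz' : z ∈ Algebra.adjoin k {tb} := hz
      rw [Algebra.adjoin_singleton_eq_range_aeval] at hz'
      obtain ⟨q, rfl⟩ := hz'
      obtain ⟨s, rfl⟩ := Polynomial.map_surjective r hr q
      refine ⟨s, ?_⟩
      rw [coe_eval₂RingHom, ← eval₂_map]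
      rfl) _ hint2
  have h0 := CFded_res_eval₂ S.R
    ((algebraMap E F0).comp ((aeval t : A[X] →ₐ[A] E) : A[X] →+* E)) _ hψ _ _ hres P
  rw [hPy] at h0
  obtain ⟨a', ha', hae⟩ := D.n0 _ hOL P hP (D.q0' _ (inM_iff.2 h0))
  have h1 := S.R.res_add (D.res_of_isPiOLx0 _ hae) hres
  rw [sub_add_cancel, zero_add] at h1
  exact ⟨⟨a', ha'⟩, (resHom_eq_iff _ _ _ _ _).2 h1⟩

/-- `k[tb]` is a principal ideal ring. -/
theorem CFded_isPrincipalIdealRing {k' κ' : Type*} [Field k'] [Field κ'] [Algebra k' κ'] (tb : κ') :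
    IsPrincipalIdealRing (Algebra.adjoin k' {tb}) := by
  rw [Algebra.adjoin_singleton_eq_range_aeval]
  exact IsPrincipalIdealRing.of_surjective (aeval tb : k'[X] →ₐ[k'] κ').rangeRestrict.toRingHom
    (aeval tb : k'[X] →ₐ[k'] κ').rangeRestrict_surjective

/-- a domain which is integral over a subring of dimension `≤ 1` has dimension `≤ 1`. -/
theorem CFded_dimensionLEOne {κ' : Type*} [Field κ'] (B R : Subring κ') (hBR : B ≤ R)
    [Ring.DimensionLEOne B] (hR : ∀ x ∈ R, IsIntegral B x) : Ring.DimensionLEOne R := by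
  let _ : Algebra B R := (Subring.inclusion hBR).toAlgebra
  have : IsScalarTower B R κ' := IsScalarTower.of_algebraMap_eq fun _ => rfl
  have : Algebra.IsIntegral B R := ⟨fun x =>
    (isIntegral_algebraMap_iff (A := R) (B := κ') Subtype.val_injective).1 (hR x x.2)⟩
  refine ⟨fun {p} hp0 hpp => ?_⟩
  obtain ⟨x, hx, hx0⟩ := Submodule.exists_mem_ne_zero_of_ne_bot hp0
  have h1 : p.comap (algebraMap B R) ≠ ⊥ :=
    Ideal.comap_ne_bot_of_integral_mem hx0 hx (Algebra.IsIntegral.isIntegral x)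
  have h2 : (p.comap (algebraMap B R)).IsMaximal :=
    Ring.DimensionLEOne.maximalOfPrime h1 inferInstance
  exact Ideal.isMaximal_of_isIntegral_of_isMaximal_comap p h2

/-- a subring of a field which contains all the quotients `a / b` integral over it is integrally closed. -/
theorem CFded_exists_of_isIntegral {κ' : Type*} [Field κ'] (R : Subring κ')
    (h : ∀ a b : κ', a ∈ R → b ∈ R → b ≠ 0 → IsIntegral R (a / b) → a / b ∈ R)
    {x : FractionRing R} (hx : IsIntegral R x) : ∃ y, algebraMap R (FractionRing R) y = x := by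
  have hinj : Function.Injective (Algebra.ofId R κ') := Subtype.val_injective
  obtain ⟨a, b, hb, rfl⟩ := IsFractionRing.div_surjective (A := R) x
  have hb0 : (b : κ') ≠ 0 := by
    intro h0
    exact nonZeroDivisors.ne_zero hb (Subtype.ext h0)
  have h1 := hx.map (IsFractionRing.liftAlgHom (K := FractionRing R) hinj)
  rw [map_div₀, IsFractionRing.liftAlgHom_apply, IsFractionRing.liftAlgHom_apply,
    IsFractionRing.lift_algebraMap, IsFractionRing.lift_algebraMap] at h1
  have h2 := h a b a.2 b.2 hb0 h1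
  refine ⟨⟨_, h2⟩, ?_⟩
  have hb1 : algebraMap R (FractionRing R) b ≠ 0 := by
    rw [Ne, map_eq_zero_iff _ (IsFractionRing.injective R (FractionRing R))]
    exact nonZeroDivisors.ne_zero hb
  rw [eq_div_iff hb1, ← map_mul]
  congr 1
  apply Subtype.ext
  show (a : κ') / (b : κ') * (b : κ') = a
  exact div_mul_cancel₀ _ hb0

/-- (task `S36/CF-ded`) -/
theorem isDedekindDomain (hr : Function.Surjective r) (hrπ : r π = 0)
    (hA : ∀ a : A, S.R.Res (algebraMap A F0 a) (algebraMap k κ (r a))) :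
    IsDedekindDomain D.chart.Rr := by
  obtain ⟨tb, htb, -⟩ := D.res_t
  have hnoeth : IsNoetherianRing D.chart.Rr := by
    have := Mx_isNoetherianRing (F := F0) D.ht D.hgen
    exact isNoetherianRing_of_surjective _ _ D.chart.ρ0 D.chart.ρ0_surj
  have hBR : (Algebra.adjoin k {tb}).toSubring ≤ D.chart.Rr := by
    intro z hz
    have hz' : z ∈ Algebra.adjoin k {tb} := hz
    rw [Algebra.adjoin_singleton_eq_range_aeval] at hz'
    obtain ⟨q, rfl⟩ := hz'
    obtain ⟨s, rfl⟩ := Polynomial.map_surjective r hr q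
    have h1 : algebraMap E F0 (aeval t s) = eval₂ (algebraMap A F0) (algebraMap E F0 t) s := by
      rw [aeval_def, hom_eval₂, ← IsScalarTower.algebraMap_eq]
    have h2 := CFded_res_eval₂ S.R (algebraMap A F0) ((algebraMap k κ).comp r) hA _ _ htb s
    rw [← h1, ← eval₂_map] at h2
    have h3 : IntX A t (algebraMap E F0 (aeval t s)) := by
      let _ := algL (A := A) F0 t
      exact (isIntegral_algebraMap : IsIntegral A[X] (algebraMap A[X] F0 s))
    exact ⟨⟨_, h3⟩, (resHom_eq_iff _ _ _ _ _).2 h2⟩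
  have hpir : IsPrincipalIdealRing (Algebra.adjoin k {tb}).toSubring :=
    CFded_isPrincipalIdealRing (k' := k) tb
  have hdim : Ring.DimensionLEOne D.chart.Rr :=
    CFded_dimensionLEOne (Algebra.adjoin k {tb}).toSubring D.chart.Rr hBR
      (fun x hx => D.isIntegral_Rr r hr hA tb htb x hx)
  exact (isDedekindDomain_iff D.chart.Rr (FractionRing D.chart.Rr)).2 ⟨inferInstance, hnoeth, hdim,
    fun {x} hx => CFded_exists_of_isIntegral D.chart.Rr
      (fun a b ha hb hb0 h => D.mem_of_isIntegral r hr hrπ hA a b ha hb hb0 h) hx⟩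

end QData

end Fermat.Agent.S36.Mod
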