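import Fermat.Agent.S36.Val.Place

/-!
# S36 / Mod / Chart / FinAux : finite order of vanishing along a vertical component (abstract form)

`M ⊆ F` a subring, `P j` (`j : J` finite) places of `F` at which `M` is integral, `ϖ` of order `e j > 0` at `P j`,
`M` saturated (`f ∈ M`, `f/ϖ` integral at all `P j` ⟹ `f/ϖ ∈ M`), the places are separated by elements of `M`.
Then for `d ∈ M ∖ 0` and a component `c` there are `N`, `t ∈ M`, unit at `P c`, with `d ∣ t ϖ ^ N` in `M`: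
`t = d ^ (e c) s ^ K / ϖ ^ n`, `n = ord_c d`, `s` a unit at `c` vanishing at the other components, `K` large.
-/

set_option autoImplicit false

namespace Fermat.Agent.S36.Mod

open Fermat.Agent.S36.Val

variable {F κ : Type*} [Field F] [Field κ]

theorem FinAux_int_of_ord (P : APlace F κ) {n : ℤ} {y : F} (h : P.Ord n y) (hn : 0 ≤ n) :
    ∃ c, P.Res y c := by
  rcases hn.eq_or_lt with rfl | hn
  · obtain ⟨c, -, hc⟩ := P.ord_zero_iff.1 h
    exact ⟨c, hc⟩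
  · exact ⟨0, P.res_of_pos h hn⟩

theorem FinAux_ord_nonneg (P : APlace F κ) {n : ℤ} {y : F} {c : κ} (h : P.Ord n y)
    (hc : P.Res y c) : 0 ≤ n := by
  by_contra hn
  have h1 := P.res_of_pos (P.ord_inv h) (by omega)
  have h2 := P.res_mul hc h1
  rw [mul_inv_cancel₀ (P.ord_ne_zero h), mul_zero] at h2
  exact one_ne_zero (P.res_unique P.res_one h2)

theorem FinAux_ord_pos (P : APlace F κ) {n : ℤ} {y : F} (h : P.Ord n y) (hc : P.Res y 0) :
    0 < n := by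
  rcases (FinAux_ord_nonneg P h hc).eq_or_lt with rfl | h'
  · obtain ⟨c, hc0, hc'⟩ := P.ord_zero_iff.1 h
    exact absurd (P.res_unique hc' hc) hc0
  · exact h'

theorem FinAux_exists_sep {J : Type*} [DecidableEq J] (P : J → APlace F κ) (M : Subring F)
    (int : ∀ f ∈ M, ∀ j, ∃ c, (P j).Res f c) (c : J)
    (sep : ∀ j, j ≠ c → ∃ u ∈ M, (P j).Res u 0 ∧ ∃ r, r ≠ 0 ∧ (P c).Res u r)
    (T : Finset J) (hT : c ∉ T) :
    ∃ s ∈ M, (∃ r, r ≠ 0 ∧ (P c).Res s r) ∧ ∀ j ∈ T, (P j).Res s 0 := by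
  induction T using Finset.induction_on with
  | empty => exact ⟨1, M.one_mem, ⟨1, one_ne_zero, (P c).res_one⟩, by simp⟩
  | insert j T hj ih =>
    obtain ⟨s, hs, ⟨r, hr, hsr⟩, hsT⟩ := ih (fun h => hT (Finset.mem_insert_of_mem h))
    have hjc : j ≠ c := fun h => hT (h ▸ Finset.mem_insert_self j T)
    obtain ⟨u, hu, hu0, r', hr', hur⟩ := sep j hjc
    refine ⟨s * u, M.mul_mem hs hu, ⟨r * r', mul_ne_zero hr hr', (P c).res_mul hsr hur⟩, ?_⟩
    intro k hk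
    rcases Finset.mem_insert.1 hk with rfl | hk
    · obtain ⟨x, hx⟩ := int s hs k
      have := (P k).res_mul hx hu0
      rwa [mul_zero] at this
    · obtain ⟨x, hx⟩ := int u hu k
      have := (P k).res_mul (hsT k hk) hx
      rwa [zero_mul] at this

theorem FinAux_main {J : Type*} [Fintype J] [DecidableEq J] (P : J → APlace F κ) (M : Subring F)
    (ϖ : F) (e : J → ℕ) (he : ∀ j, 0 < e j) (hord : ∀ j, (P j).Ord (e j) ϖ)
    (int : ∀ f ∈ M, ∀ j, ∃ c, (P j).Res f c)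
    (sat : ∀ f ∈ M, (∀ j, ∃ c, (P j).Res (f / ϖ) c) → f / ϖ ∈ M)
    (c : J) (sep : ∀ j, j ≠ c → ∃ u ∈ M, (P j).Res u 0 ∧ ∃ r, r ≠ 0 ∧ (P c).Res u r)
    (d : F) (hd : d ∈ M) (hd0 : d ≠ 0) :
    ∃ (N : ℕ) (t : F), t ∈ M ∧ (∃ r, r ≠ 0 ∧ (P c).Res t r) ∧ ∃ b ∈ M, t * ϖ ^ N = d * b := by
  obtain ⟨s, hs, ⟨r, hr, hsr⟩, hsT⟩ :=
    FinAux_exists_sep P M int c sep (Finset.univ.erase c) (Finset.notMem_erase c _)
  have hsc : (P c).Ord 0 s := (P c).ord_of_res hsr hr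
  have hs0 : s ≠ 0 := (P c).ord_ne_zero hsc
  have hnd : ∀ j, ∃ n : ℤ, 0 ≤ n ∧ (P j).Ord n d := by
    intro j
    obtain ⟨n, hn⟩ := (P j).ord_exists d hd0
    obtain ⟨x, hx⟩ := int d hd j
    exact ⟨n, FinAux_ord_nonneg _ hn hx, hn⟩
  choose nd hnd0 hnd using hnd
  have hms : ∀ j, j ≠ c → ∃ m : ℤ, 0 < m ∧ (P j).Ord m s := by
    intro j hj
    obtain ⟨m, hm⟩ := (P j).ord_exists s hs0
    exact ⟨m, FinAux_ord_pos _ hm (hsT j (Finset.mem_erase.2 ⟨hj, Finset.mem_univ _⟩)), hm⟩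
  obtain ⟨n, hn⟩ := Int.eq_ofNat_of_zero_le (hnd0 c)
  obtain ⟨E, heE⟩ : ∃ E : ℕ, ∀ j, e j ≤ E :=
    ⟨∑ j, e j, fun j => Finset.single_le_sum (fun _ _ => Nat.zero_le _) (Finset.mem_univ j)⟩
  obtain ⟨K, hK⟩ : ∃ K : ℕ, K = n * E := ⟨_, rfl⟩
  obtain ⟨y, hy⟩ : ∃ y : ℕ → F, ∀ i, y i = d ^ (e c) * s ^ K / ϖ ^ i := ⟨_, fun _ => rfl⟩
  have hϖ0 : ϖ ≠ 0 := (P c).ord_ne_zero (hord c)
  have hyc : ∀ i : ℕ, (P c).Ord ((e c : ℤ) * n - i * e c) (y i) := by
    intro i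
    have := (P c).ord_div ((P c).ord_mul ((P c).ord_pow (hnd c) (e c)) ((P c).ord_pow hsc K))
      ((P c).ord_pow (hord c) i)
    rw [hy]
    convert this using 1
    rw [hn]
    ring
  have hyM : ∀ i, i ≤ n → y i ∈ M := by
    intro i
    induction i with
    | zero =>
      intro _
      rw [hy, pow_zero, div_one]
      exact M.mul_mem (M.pow_mem hd _) (M.pow_mem hs _)
    | succ i ih =>
      intro hi
      have h1 := ih (by omega)
      have e1 : y (i + 1) = y i / ϖ := by rw [hy, hy, pow_succ, div_div]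
      rw [e1]
      refine sat _ h1 ?_
      intro j
      rw [← e1]
      by_cases hj : j = c
      · rw [hj]
        refine FinAux_int_of_ord _ (hyc (i + 1)) ?_
        have h2 : (i + 1) * e c ≤ n * e c := Nat.mul_le_mul hi le_rfl
        have h3 : ((i + 1 : ℕ) : ℤ) * (e c : ℤ) ≤ (n : ℤ) * (e c : ℤ) := by exact_mod_cast h2
        linarith
      · obtain ⟨m, hm0, hm⟩ := hms j hj
        have := (P j).ord_div ((P j).ord_mul ((P j).ord_pow (hnd j) (e c)) ((P j).ord_pow hm K))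
          ((P j).ord_pow (hord j) (i + 1))
        rw [hy]
        refine FinAux_int_of_ord _ this ?_
        have h2 : (i + 1) * e j ≤ K := hK ▸ Nat.mul_le_mul hi (heE j)
        have h3 : ((i + 1 : ℕ) : ℤ) * (e j : ℤ) ≤ (K : ℤ) := by exact_mod_cast h2
        have h4 : (K : ℤ) ≤ K * m := by
          have : (0 : ℤ) ≤ K := Int.natCast_nonneg K
          nlinarith
        have h5 : 0 ≤ (e c : ℤ) * nd j := mul_nonneg (Int.natCast_nonneg _) (hnd0 j)
        linarith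
  refine ⟨n, y n, hyM n le_rfl, ?_, d ^ (e c - 1) * s ^ K,
    M.mul_mem (M.pow_mem hd _) (M.pow_mem hs _), ?_⟩
  · have := hyc n
    rw [show (e c : ℤ) * n - n * e c = 0 by ring] at this
    exact (P c).ord_zero_iff.1 this
  · rw [hy, div_mul_cancel₀ _ (pow_ne_zero _ hϖ0), ← mul_assoc, ← pow_succ',
      Nat.sub_add_cancel (he c)]

end Fermat.Agent.S36.Mod
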