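import Fermat.Agent.S36.Val.Place
import Fermat.Agent.S36.R.Main

/-!
# S36 / Mod / Chart / Link : dictionary between a `R.Model` and the places of its components     (tasks `S36/ML-den`, `S36/ML-dict`)

`𝓜 : Model M R π ι`, `F = Frac M`, `Pl c : APlace F κ` the place of the component `c`, `j : R ↪ κ`.
`Link 𝓜 Pl j` :  `res` : the residue of `a ∈ M` at `Pl c` is `j (ρ_c a)`;   `sat` : `f ∈ M`, `f / π` integral at all `Pl c` ⟹ `π ∣ f`.

PROOFS (cf. the proofs of `Dict_*`, `oneMod`, `congAt` in `Val/PData.lean`, which can be copied).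
* `pos_of_res_zero`: `w ≠ 0`, `Res w 0` ⟹ `Ord n w`, `0 < n`  [`ord_exists`; `n = 0`: `ord_zero_iff` + `res_unique`; `n < 0`: `w⁻¹` has residue `0` (`ord_inv`,
  `res_of_pos`), so `1 = w * w⁻¹` has residue `0`].   `int_of_ord`: `Ord n y`, `0 ≤ n` ⟹ integral.
* `dvd_pow_of_int`: `a ∈ M`, `a / π ^ N` integral at all places ⟹ `π ^ N ∣ a`  [induction on `N` with `sat`; `π` is integral; `π ≠ 0` or trivial].
* `exists_den` (`M_{𝔭_c}` is the valuation ring of `Pl c`): `z` integral at `c`.  `z = a₀ / b₀` (`IsFractionRing.div_surjective`), `Model.fin c b₀`: `b₀ ∣ t₀ π ^ N`,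
  so `z t₀ π ^ N ∈ M`.  `w = ∏_{c' ≠ c} u_{c'}` (`Model.sep c c'`): `ρ_c w ≠ 0`, `ρ_{c'} w = 0`.  For `k` large `z t₀ w ^ k` is integral at all places
  (at `c`: product of integral elements; at `c' ≠ c`: `Ord` of `w` is positive).  `dvd_pow_of_int` ⟹ `z t₀ w ^ k ∈ M`;  `b = t₀ w ^ k`.
* `congAt`: `y = (h - u) / π` integral at `c`, so `h = u + π y` as well.  `exists_den` for `h` (`b`, `a`) and for `y` (`b'`, `a'`):
  `t = b'`:  `t (a - u b) = b' b (h - u) = π b (y b') = π b a'`.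
* `oneMod`: `R.oneMod_of_congAt` + `congAt` with `u = 1`.
* `int_of_vunit`: `y b = π r` ⟹ `y / π = r / b`, `APlace.res_div` (`j (ρ_c b) ≠ 0`).
-/

set_option autoImplicit false

namespace Fermat.Agent.S36.Mod

open Fermat.Agent.S36.Val Fermat.Agent.S36.R

/-- the components of the model are given by places of the fraction field. -/
structure Link {M R F κ ι : Type*} [CommRing M] [CommRing R] [Field F] [Field κ] [Algebra M F]
    {π : M} (𝓜 : Model M R π ι) (Pl : ι → APlace F κ) (j : R →+* κ) : Prop where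
  inj : Function.Injective j
  res : ∀ c (a : M), (Pl c).Res (algebraMap M F a) (j (𝓜.ρ c a))
  sat : ∀ f : M, (∀ c, ∃ r, (Pl c).Res (algebraMap M F f / algebraMap M F π) r) → π ∣ f

namespace Link

variable {M R F κ ι : Type*} [CommRing M] [IsDomain M] [CommRing R] [IsDomain R] [Field F]
  [Field κ] [Algebra M F] [IsFractionRing M F] [Finite ι]
  {π : M} {𝓜 : Model M R π ι} {Pl : ι → APlace F κ} {j : R →+* κ}

/-! ### task `S36/ML-den` -/

omit [IsDomain M] [IsDomain R] [Finite ι] [CommRing M] [CommRing R] [Algebra M F]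
  [IsFractionRing M F] in
theorem MLden_pos_of_res_zero (P : APlace F κ) {w : F} (hw : w ≠ 0) (h : P.Res w 0) :
    ∃ n : ℤ, 0 < n ∧ P.Ord n w := by
  obtain ⟨n, hn⟩ := P.ord_exists w hw
  rcases lt_trichotomy n 0 with hlt | rfl | hgt
  · exfalso
    have h1 := P.res_of_pos (P.ord_inv hn) (by omega)
    have h2 := P.res_mul h h1
    rw [mul_inv_cancel₀ hw, mul_zero] at h2
    exact one_ne_zero (P.res_unique P.res_one h2)
  · exfalso
    obtain ⟨c, hc, h1⟩ := P.ord_zero_iff.1 hn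
    exact hc (P.res_unique h1 h)
  · exact ⟨n, hgt, hn⟩

omit [IsDomain M] [IsDomain R] [Finite ι] [CommRing M] [CommRing R] [Algebra M F]
  [IsFractionRing M F] in
theorem MLden_int_of_ord (P : APlace F κ) {n : ℤ} {y : F} (h : P.Ord n y) (hn : 0 ≤ n) :
    ∃ r, P.Res y r := by
  rcases hn.eq_or_lt with rfl | hn
  · obtain ⟨c, -, h1⟩ := P.ord_zero_iff.1 h
    exact ⟨c, h1⟩
  · exact ⟨0, P.res_of_pos h hn⟩

omit [IsDomain R] [Finite ι] [IsFractionRing M F] in
theorem MLden_pi_ne_zero (L : Link 𝓜 Pl j) : π ≠ 0 := by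
  intro hπ
  have h1 := L.sat 1 (fun c => ⟨0, by rw [hπ, map_zero, div_zero]; exact (Pl c).res_zero⟩)
  rw [hπ] at h1
  exact one_ne_zero (zero_dvd_iff.1 h1)

theorem dvd_pow_of_int (L : Link 𝓜 Pl j) (a : M) (N : ℕ)
    (h : ∀ c, ∃ r, (Pl c).Res (algebraMap M F a / algebraMap M F π ^ N) r) : π ^ N ∣ a := by
  have hπ : algebraMap M F π ≠ 0 := by
    intro h0
    exact MLden_pi_ne_zero L ((IsFractionRing.injective M F) (by rw [h0, map_zero]))
  induction N generalizing a with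
  | zero => simp
  | succ N ih =>
    have h1 : π ∣ a := by
      refine L.sat a fun c => ?_
      obtain ⟨r, hr⟩ := h c
      have h2 := (Pl c).res_mul hr ((Pl c).res_pow (L.res c π) N)
      have e : algebraMap M F a / algebraMap M F π ^ (N + 1) * algebraMap M F π ^ N =
          algebraMap M F a / algebraMap M F π := by
        rw [pow_succ]
        field_simp
      rw [e] at h2
      exact ⟨_, h2⟩
    obtain ⟨a', rfl⟩ := h1
    rw [pow_succ']
    refine mul_dvd_mul_left π (ih a' fun c => ?_)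
    obtain ⟨r, hr⟩ := h c
    refine ⟨r, ?_⟩
    have e : algebraMap M F (π * a') / algebraMap M F π ^ (N + 1) =
        algebraMap M F a' / algebraMap M F π ^ N := by
      rw [map_mul, pow_succ']
      field_simp
    rwa [e] at hr

theorem exists_den (L : Link 𝓜 Pl j) (c : ι) (z : F) (hz : ∃ r, (Pl c).Res z r) :
    ∃ b a : M, 𝓜.ρ c b ≠ 0 ∧ z * algebraMap M F b = algebraMap M F a := by
  classical
  obtain ⟨_⟩ := nonempty_fintype ι
  have hinj := IsFractionRing.injective M F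
  have hne : ∀ m : M, m ≠ 0 → algebraMap M F m ≠ 0 := fun m hm h0 =>
    hm (hinj (by rw [h0, map_zero]))
  have hπ : algebraMap M F π ≠ 0 := hne π (MLden_pi_ne_zero L)
  by_cases hz0 : z = 0
  · refine ⟨1, 0, ?_, by rw [hz0, zero_mul, map_zero]⟩
    rw [map_one]
    exact one_ne_zero
  obtain ⟨a₀, b₀, hb₀, hzab⟩ := IsFractionRing.div_surjective (A := M) z
  have hb₀' : b₀ ≠ 0 := nonZeroDivisors.ne_zero hb₀
  obtain ⟨N, t₀, ht₀, d, hd⟩ := 𝓜.fin c b₀ hb₀'
  -- the separating element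
  choose! u hu using fun c' (hc' : c ≠ c') => 𝓜.sep c c' hc'
  obtain ⟨w, hw⟩ : ∃ w : M, w = ∏ c' ∈ Finset.univ.erase c, u c' := ⟨_, rfl⟩
  have hwc : 𝓜.ρ c w ≠ 0 := by
    rw [hw, map_prod, Finset.prod_ne_zero_iff]
    intro c' hc'
    exact (hu c' (Finset.ne_of_mem_erase hc').symm).2
  have hwc' : ∀ c', c ≠ c' → 𝓜.ρ c' w = 0 := by
    intro c' hc'
    rw [hw, map_prod]
    exact Finset.prod_eq_zero (Finset.mem_erase.2 ⟨hc'.symm, Finset.mem_univ _⟩) (hu c' hc').1
  have hw0 : w ≠ 0 := fun h0 => hwc (by rw [h0, map_zero])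
  have ht00 : t₀ ≠ 0 := fun h0 => ht₀ (by rw [h0, map_zero])
  have hy0 : z * algebraMap M F t₀ ≠ 0 := mul_ne_zero hz0 (hne _ ht00)
  -- integrality for large `k`
  have hK : ∀ c', ∃ K : ℕ, ∀ k, K ≤ k →
      ∃ r, (Pl c').Res (z * algebraMap M F t₀ * algebraMap M F w ^ k) r := by
    intro c'
    by_cases hc' : c = c'
    · subst hc'
      obtain ⟨r, hr⟩ := hz
      exact ⟨0, fun k _ => ⟨_, (Pl c).res_mul ((Pl c).res_mul hr (L.res c t₀))
        ((Pl c).res_pow (L.res c w) k)⟩⟩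
    · have h1 : (Pl c').Res (algebraMap M F w) 0 := by
        have h2 := L.res c' w
        rwa [hwc' c' hc', map_zero] at h2
      obtain ⟨n, hn, hn'⟩ := MLden_pos_of_res_zero (Pl c') (hne _ hw0) h1
      obtain ⟨m, hm⟩ := (Pl c').ord_exists _ hy0
      refine ⟨(-m).toNat, fun k hk => MLden_int_of_ord (Pl c')
        ((Pl c').ord_mul hm ((Pl c').ord_pow hn' k)) ?_⟩
      have h3 : -m ≤ (k : ℤ) := by
        have := Int.self_le_toNat (-m)
        omega
      have h4 : (0 : ℤ) ≤ k := Int.natCast_nonneg k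
      nlinarith
  choose K hK using hK
  have hk : ∀ c', K c' ≤ ∑ c', K c' := fun c' =>
    Finset.single_le_sum (fun _ _ => Nat.zero_le _) (Finset.mem_univ c')
  obtain ⟨k, hkdef⟩ : ∃ k : ℕ, k = ∑ c', K c' := ⟨_, rfl⟩
  have e1 : algebraMap M F t₀ * algebraMap M F π ^ N = algebraMap M F b₀ * algebraMap M F d := by
    rw [← map_pow, ← map_mul, hd, map_mul]
  have e2 : algebraMap M F (a₀ * d * w ^ k) =
      z * algebraMap M F t₀ * algebraMap M F w ^ k * algebraMap M F π ^ N := by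
    have hb : algebraMap M F b₀ ≠ 0 := hne _ hb₀'
    rw [map_mul, map_mul, map_pow, ← hzab]
    calc algebraMap M F a₀ * algebraMap M F d * algebraMap M F w ^ k
        = algebraMap M F a₀ / algebraMap M F b₀ * (algebraMap M F b₀ * algebraMap M F d) *
            algebraMap M F w ^ k := by field_simp
      _ = _ := by rw [← e1]; ring
  have hdvd : π ^ N ∣ a₀ * d * w ^ k := by
    refine dvd_pow_of_int L _ N fun c' => ?_
    obtain ⟨r, hr⟩ := hK c' k (hkdef ▸ hk c')
    refine ⟨r, ?_⟩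
    rwa [e2, mul_div_cancel_right₀ _ (pow_ne_zero _ hπ)]
  obtain ⟨a, ha⟩ := hdvd
  refine ⟨t₀ * w ^ k, a, ?_, ?_⟩
  · rw [map_mul, map_pow]
    exact mul_ne_zero ht₀ (pow_ne_zero _ hwc)
  · apply mul_right_cancel₀ (pow_ne_zero N hπ)
    rw [map_mul, map_pow, ← mul_assoc, ← e2, ha, map_mul, map_pow, mul_comm]

/-! ### task `S36/ML-dict` -/

omit [IsDomain R] [IsFractionRing M F] [Finite ι] in
/-- (helper, `ML-dict`) `π ≠ 0` (`sat` for `f = 1`). -/
theorem MLdict_pi_ne_zero (L : Link 𝓜 Pl j) : π ≠ 0 := by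
  rintro rfl
  have h := L.sat 1 (fun c => ⟨0, by rw [map_zero, div_zero]; exact (Pl c).res_zero⟩)
  exact one_ne_zero (zero_dvd_iff.1 h)

theorem congAt (L : Link 𝓜 Pl j) (c : ι) (h : F) (u : M)
    (hz : ∃ r, (Pl c).Res ((h - algebraMap M F u) / algebraMap M F π) r) : CongAt 𝓜 c h u := by
  have hinj := IsFractionRing.injective M F
  have hπ : algebraMap M F π ≠ 0 := (map_ne_zero_iff _ hinj).2 L.MLdict_pi_ne_zero
  obtain ⟨r, hr⟩ := hz
  have hh : algebraMap M F u +
      algebraMap M F π * ((h - algebraMap M F u) / algebraMap M F π) = h := by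
    field_simp
    ring
  have hhres : ∃ r', (Pl c).Res h r' := by
    have h1 := (Pl c).res_add (L.res c u) ((Pl c).res_mul (L.res c π) hr)
    rw [hh] at h1
    exact ⟨_, h1⟩
  obtain ⟨b, a, hb, hab⟩ := L.exists_den c h hhres
  obtain ⟨b', a', hb', hab'⟩ := L.exists_den c _ ⟨r, hr⟩
  refine ⟨a, b, b', hb, hb', ⟨b * a', ?_⟩, hab⟩
  apply hinj
  simp only [map_mul, map_sub]
  rw [← hab, ← hab']
  field_simp

theorem oneMod (L : Link 𝓜 Pl j) (W : F)
    (hz : ∀ c, ∃ r, (Pl c).Res ((W - 1) / algebraMap M F π) r) : OneMod 𝓜 W := by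
  exact oneMod_of_congAt 𝓜 fun c => L.congAt c W 1 (by rw [map_one]; exact hz c)

theorem int_of_vunit (L : Link 𝓜 Pl j) (y : F) (b r : M) (hb : 𝓜.VUnit b)
    (h : y * algebraMap M F b = algebraMap M F (π * r)) (c : ι) :
    ∃ r', (Pl c).Res (y / algebraMap M F π) r' := by
  have hinj := IsFractionRing.injective M F
  have hπ : algebraMap M F π ≠ 0 := (map_ne_zero_iff _ hinj).2 L.MLdict_pi_ne_zero
  have hb0 : b ≠ 0 := by
    rintro rfl
    exact hb c (map_zero _)
  have hbF : algebraMap M F b ≠ 0 := (map_ne_zero_iff _ hinj).2 hb0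
  have hjb : j (𝓜.ρ c b) ≠ 0 := (map_ne_zero_iff _ L.inj).2 (hb c)
  have e : y / algebraMap M F π = algebraMap M F r / algebraMap M F b := by
    rw [map_mul] at h
    rw [div_eq_div_iff hπ hbF, h]
    ring
  exact ⟨_, e ▸ (Pl c).res_div (L.res c r) (L.res c b) hjb⟩

end Link

end Fermat.Agent.S36.Mod
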