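import Fermat.Agent.S36.Mod.Chart.Tower
import Fermat.Agent.S36.Mod.Chart.Link
import Fermat.Agent.S36.Val.Main2
import Fermat.Agent.S36.R.Glue

/-!
# S36 / Mod / Chart / Lift : `chart_main` in the language of places      (tasks `S36/ML-link`, `S36/ML-norm`, `S36/ML-lift`)

`C : Chart S i₀ b0 w1 w2 M0 M1 M2`.

* `link1`, `link2` (task `ML-link`): `Link` (see `Chart/Link.lean`) for `C.m1`, `C.m2`.
  `res`: `fin_cases c`, `C.res_r1_0`, … (`coe_ρ1`, `coe_ρ2`);  `sat`: `C.sat1`, `C.sat2` / `C.dvd_of_int3` (`inV_iff`); the algebra map `M_i → F_i` is the coercion, and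
  `((C.p1 (C.α C.pi) : M2) : F2) = S.c2 S.π` is `rfl`.
* `normHom_mem` (task `ML-norm`): the norm of an integral element lies in the integrally closed ring `M` (`Algebra.isIntegral_norm`, `letI := φ.toAlgebra`, char. 0;
  `IsIntegrallyClosed.isIntegral_iff`).   `nm1`, `nm2`: `a ∈ M2` is integral over `p1 (M1)` (`RingHom.Finite.to_isIntegral`), `b = normHom S.al a ∈ M1`;
  `S.NmA_eq`; with `Res3 a (ρ2 0 a) (ρ2 1 a) (ρ2 2 a)` (`C.res_r2_*`): `Val.Setup.resAinf`, `resA0` (with `d = ρ1 1 b`), `resBinf`, `resB0`; conclude with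
  `APlace.res_unique` and `Subtype.ext`.
* `chart_lift` (task `ML-lift`): `R.chart_main` for `𝓣 = C.tower`, with `ua := ⟨S.cst ua, _⟩ : M0`, …;
  `OneMod` from `(C.link2 _).oneMod`, the `CongAt`s from `(C.link1 _).congAt`, `(C.link2 _).congAt` (`inV_iff`; `S.c1 u = ((C.α ⟨S.cst u, _⟩ : M1) : F1)` is `rfl`);
  `hβ` from `C.b0_cst`; `normHom S.al W = H1 ^ m` from `S.NmA_eq`.  Then `R.exists_lift_of_locSol` and `(C.link2 _).int_of_vunit`.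
-/

set_option autoImplicit false

namespace Fermat.Agent.S36.Mod

open Fermat.Agent.Crux.G.QLink Fermat.Agent.S36.Val Fermat.Agent.S36.R Fermat.Agent.S36.Norm

/-- the norm of an integral element. -/
theorem normHom_mem {F E : Type*} [Field F] [Field E] [CharZero F] (φ : F →+* E) (hφ : FinHom φ)
    (M : Subring F) [IsIntegrallyClosed M] [IsFractionRing M F] (a : E)
    (ha : (φ.comp M.subtype).IsIntegralElem a) : normHom φ a ∈ M := by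
  letI : Algebra F E := φ.toAlgebra
  letI : Algebra M E := (φ.comp M.subtype).toAlgebra
  haveI : IsScalarTower M F E := IsScalarTower.of_algebraMap_eq' rfl
  have h1 : IsIntegral M a := ha
  have h2 : IsIntegral M (Algebra.norm F a) := Algebra.isIntegral_norm F h1
  obtain ⟨y, hy⟩ := IsIntegrallyClosed.isIntegral_iff.mp h2
  have h3 : normHom φ a = (y : F) := hy.symm
  rw [h3]
  exact y.2

variable {l : ℕ} {K F0 F1 F2 Ω O κ Ω1 O1 ι μ : Type*} [Field K] [Field F0] [Field F1]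
    [Field F2] [Field Ω] [CommRing O] [Field κ] [Field Ω1] [CommRing O1] [Fintype ι]
    [Fintype μ]

/-- the places of level `N l`. -/
def Pl1 (S : Setup l K F0 F1 F2 Ω O κ Ω1 O1 ι μ) : Fin 2 → APlace F1 κ := ![S.Qinf, S.Q0]

/-- the places of level `N l²`. -/
def Pl2 (S : Setup l K F0 F1 F2 Ω O κ Ω1 O1 ι μ) (i₀ : ι) : Fin 3 → APlace F2 κ :=
  ![S.Pinf, S.Pm i₀, S.P0]

namespace Chart

variable {S : Setup l K F0 F1 F2 Ω O κ Ω1 O1 ι μ} {i₀ : ι} {b0 : F0 →+* F1}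
    {w1 : F1 →+* F1} {w2 : F2 →+* F2}
    {M0 : Subring F0} {M1 : Subring F1} {M2 : Subring F2}
    (C : Chart S i₀ b0 w1 w2 M0 M1 M2)

theorem link1 (hl : 2 ≤ l) : Link (C.m1 hl) (Pl1 S) C.Rr.subtype := by
  refine ⟨Subtype.val_injective, ?_, ?_⟩
  · intro c a
    fin_cases c
    · exact C.res_r1_0 a
    · exact C.res_r1_1 a
  · intro f hf
    obtain ⟨r0, hr0⟩ := hf 0
    obtain ⟨r1, hr1⟩ := hf 1
    have hint : S.Int2 ((f : F1) / S.a0 (S.cst S.π)) :=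
      ⟨inV_iff.2 ⟨r0, hr0⟩, inV_iff.2 ⟨r1, hr1⟩⟩
    have hπ : S.a0 (S.cst S.π) ≠ 0 := by
      intro h0
      have h1 := L1_Ψinf_pi (S := S)
      rw [h0, map_zero] at h1
      exact S.P.unif_ne_zero h1.symm
    refine ⟨⟨_, C.sat1 _ f.2 hint⟩, Subtype.ext ?_⟩
    show (f : F1) = S.a0 (S.cst S.π) * ((f : F1) / S.a0 (S.cst S.π))
    rw [mul_div_cancel₀ _ hπ]

theorem link2 (hl : 2 ≤ l) : Link (C.m2 hl) (Pl2 S i₀) C.Rr.subtype := by
  refine ⟨Subtype.val_injective, ?_, ?_⟩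
  · intro c a
    fin_cases c
    · exact C.res_r2_0 a
    · exact C.res_r2_1 a
    · exact C.res_r2_2 a
  · intro f hf
    obtain ⟨r0, hr0⟩ := hf 0
    obtain ⟨r1, hr1⟩ := hf 1
    obtain ⟨r2, hr2⟩ := hf 2
    exact C.dvd_of_int3 f ⟨inV_iff.2 ⟨r0, hr0⟩, inV_iff.2 ⟨r1, hr1⟩, inV_iff.2 ⟨r2, hr2⟩⟩

theorem Lift_isIntegralElem {A B : Type*} [Field A] [Field B] (ψ : A →+* B) (N1 : Subring A)
    (N2 : Subring B) (pp : N1 →+* N2) (hpp : ∀ f : N1, ((pp f : N2) : B) = ψ f) (hfin : pp.Finite)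
    (a : N2) : (ψ.comp N1.subtype).IsIntegralElem (a : B) := by
  obtain ⟨P, hP, h0⟩ := hfin.to_isIntegral a
  refine ⟨P, hP, ?_⟩
  have h1 := Polynomial.hom_eval₂ P pp N2.subtype a
  rw [h0, map_zero] at h1
  have h2 : N2.subtype.comp pp = ψ.comp N1.subtype := RingHom.ext fun f => hpp f
  rw [h2] at h1
  exact h1.symm

theorem nm1 (hl : 2 ≤ l) [CharZero F1] [IsIntegrallyClosed M1] [IsFractionRing M1 F1]
    (hfin : FinHom S.al) (hp1 : C.p1.Finite) (a : M2) :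
    ∃ b : M1, (b : F1) = normHom S.al (a : F2) ∧
      C.ρ1 0 b = C.ρ2 0 a * C.ρ2 1 a ^ (l - 1) ∧ C.Fr (C.ρ1 1 b) = C.ρ2 2 a ^ l := by
  have hint : (S.al.comp M1.subtype).IsIntegralElem (a : F2) :=
    Lift_isIntegralElem S.al M1 M2 C.p1 (fun _ => rfl) hp1 a
  have hy : Res3 S.Pinf (S.Pm i₀) S.P0 (a : F2) (C.r2 0 a) (C.r2 1 a) (C.r2 2 a) :=
    ⟨C.res_r2_0 a, C.res_r2_1 a, C.res_r2_2 a⟩
  refine ⟨⟨normHom S.al (a : F2), normHom_mem S.al hfin M1 _ hint⟩, rfl, ?_, ?_⟩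
  · apply Subtype.ext
    have h1 := S.resAinf hl i₀ (a : F2) _ _ _ hy
    rw [S.NmA_eq] at h1
    exact S.Qinf.res_unique (C.res_r1_0 ⟨normHom S.al (a : F2), normHom_mem S.al hfin M1 _ hint⟩) h1
  · apply Subtype.ext
    have h2 := C.res_r1_1 ⟨normHom S.al (a : F2), normHom_mem S.al hfin M1 _ hint⟩
    have h3 : S.Q0.Res (S.NmA (a : F2))
        (C.r1 1 ⟨normHom S.al (a : F2), normHom_mem S.al hfin M1 _ hint⟩) := by
      rw [S.NmA_eq]; exact h2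
    exact S.resA0 hl i₀ (a : F2) _ _ _ _ hy h3

theorem nm2 (hl : 2 ≤ l) [CharZero F1] [IsIntegrallyClosed M1] [IsFractionRing M1 F1]
    (hfin : FinHom S.be) (hp2 : C.p2.Finite) (a : M2) :
    ∃ b : M1, (b : F1) = normHom S.be (a : F2) ∧
      C.Fr (C.ρ1 0 b) = C.ρ2 0 a ^ l ∧ C.ρ1 1 b = C.ρ2 2 a * C.ρ2 1 a ^ (l - 1) := by
  have hint : (S.be.comp M1.subtype).IsIntegralElem (a : F2) :=
    Lift_isIntegralElem S.be M1 M2 C.p2 (fun _ => rfl) hp2 a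
  have hy : Res3 S.Pinf (S.Pm i₀) S.P0 (a : F2) (C.r2 0 a) (C.r2 1 a) (C.r2 2 a) :=
    ⟨C.res_r2_0 a, C.res_r2_1 a, C.res_r2_2 a⟩
  refine ⟨⟨normHom S.be (a : F2), normHom_mem S.be hfin M1 _ hint⟩, rfl, ?_, ?_⟩
  · apply Subtype.ext
    have h2 := C.res_r1_0 ⟨normHom S.be (a : F2), normHom_mem S.be hfin M1 _ hint⟩
    have h3 : S.Qinf.Res (S.NmB (a : F2))
        (C.r1 0 ⟨normHom S.be (a : F2), normHom_mem S.be hfin M1 _ hint⟩) := by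
      rw [S.NmB_eq]; exact h2
    exact S.resBinf hl i₀ (a : F2) _ _ _ _ hy h3
  · apply Subtype.ext
    have h1 := S.resB0 hl i₀ (a : F2) _ _ _ hy
    rw [S.NmB_eq] at h1
    exact S.Q0.res_unique (C.res_r1_1 ⟨normHom S.be (a : F2), normHom_mem S.be hfin M1 _ hint⟩) h1

/-- **the chart theorem in the language of places.** -/
theorem chart_lift (hl : 2 ≤ l) (X : C.Extra hl)
    (T : TowerF l (C.tower hl X) S.a0 S.al S.be)
    [IsNoetherianRing M0] [IsNoetherianRing M1] [IsNoetherianRing M2] [IsIntegrallyClosed M1]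
    [IsIntegrallyClosed M2] [IsDedekindDomain C.Rr] [IsFractionRing M0 F0] [IsFractionRing M1 F1]
    [IsFractionRing M2 F2]
    (m : ℕ) (hm0 : m ≠ 0) (hm : IsUnit (m : M0))
    (W lam : F2) (hlam : lam ≠ 0) (hW : S.Int3 i₀ ((W - 1) / S.c2 S.π))
    (hh : HorPow (C.p1 (C.α C.pi)) m W)
    (H1 H2 : F1) (hN1 : S.NmA W = H1 ^ m) (hN2 : S.NmB W = H2 ^ m)
    (ua ub uc ud : K) (hmem : ∀ u : K, u ^ m = 1 → S.cst u ∈ M0)
    (hpow : ua ^ m = 1 ∧ ub ^ m = 1 ∧ uc ^ m = 1 ∧ ud ^ m = 1)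
    (ha : InV S.inc S.red (S.Ψinf ((H1 - S.c1 ua) / S.c1 S.π)))
    (hb : InV S.inc S.red (S.Ψ0 ((H1 - S.c1 ub) / S.c1 S.π)))
    (hc : InV S.inc S.red (S.Ψinf ((H2 - S.c1 uc) / S.c1 S.π)))
    (hd : InV S.inc S.red (S.Ψ0 ((H2 - S.c1 ud) / S.c1 S.π)))
    (hl0 : InV S.inc S.red (S.Φinf
      ((lam - S.c2 ((ub * ud * ua ^ (m - 1) * uc ^ (m - 1)) ^ (l - 1))) / S.c2 S.π)))
    (hl1 : InV S.inc1 S.red1 (S.τ i₀
      ((lam - S.c2 ((ub * ua ^ (m - 1)) ^ l * (uc * ud ^ (m - 1)))) / S.c2 S.π)))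
    (hl2 : InV S.inc S.red (S.Φ0 ((lam - S.c2 1) / S.c2 S.π))) :
    ∃ Y : F2, Y ^ m * (W ^ (l ^ 2 - 1) * lam ^ m) ∈ M2 ∧ S.Int3 i₀ ((Y - 1) / S.c2 S.π) := by
  obtain ⟨hua, hub, huc, hud⟩ := hpow
  have L1 := C.link1 hl
  have L2 := C.link2 hl
  -- the constants as elements of `M0`
  obtain ⟨Ua, hUa⟩ : ∃ U : M0, (U : F0) = S.cst ua := ⟨⟨_, hmem ua hua⟩, rfl⟩
  obtain ⟨Ub, hUb⟩ : ∃ U : M0, (U : F0) = S.cst ub := ⟨⟨_, hmem ub hub⟩, rfl⟩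
  obtain ⟨Uc, hUc⟩ : ∃ U : M0, (U : F0) = S.cst uc := ⟨⟨_, hmem uc huc⟩, rfl⟩
  obtain ⟨Ud, hUd⟩ : ∃ U : M0, (U : F0) = S.cst ud := ⟨⟨_, hmem ud hud⟩, rfl⟩
  have hp : ∀ (U : M0) (u : K), (U : F0) = S.cst u → u ^ m = 1 → U ^ m = 1 := by
    intro U u hU hu
    apply Subtype.ext
    rw [Subring.coe_pow, hU, ← map_pow, hu, map_one]
    rfl
  have hβ : ∀ (U : M0) (u : K), (U : F0) = S.cst u → C.β U = C.α U := by
    intro U u hU
    apply Subtype.ext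
    rw [coe_β, coe_α, hU]
    exact C.b0_cst u
  have h1c : ∀ (U : M0) (u : K), (U : F0) = S.cst u →
      algebraMap M1 F1 (C.α U) = S.c1 u := by
    intro U u hU
    show S.a0 (U : F0) = S.a0 (S.cst u)
    rw [hU]
  have h2c : ∀ (U : M0) (u : K), (U : F0) = S.cst u →
      algebraMap M2 F2 (C.p1 (C.α U)) = S.c2 u := by
    intro U u hU
    show S.al (S.a0 (U : F0)) = S.al (S.a0 (S.cst u))
    rw [hU]
  have hπ1 : algebraMap M1 F1 (C.α C.pi) = S.c1 S.π := rfl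
  have hπ2 : algebraMap M2 F2 (C.p1 (C.α C.pi)) = S.c2 S.π := rfl
  have hOne : OneMod (C.tower hl X).m2 W := by
    refine L2.oneMod W ?_
    intro c
    rw [hπ2]
    fin_cases c
    · exact inV_iff.1 hW.1
    · exact inV_iff.1 hW.2.1
    · exact inV_iff.1 hW.2.2
  have ha' : CongAt (C.tower hl X).m1 0 H1 (C.α Ua) :=
    L1.congAt 0 H1 (C.α Ua) (by rw [hπ1, h1c Ua ua hUa]; exact inV_iff.1 ha)
  have hb' : CongAt (C.tower hl X).m1 1 H1 (C.α Ub) :=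
    L1.congAt 1 H1 (C.α Ub) (by rw [hπ1, h1c Ub ub hUb]; exact inV_iff.1 hb)
  have hc' : CongAt (C.tower hl X).m1 0 H2 (C.α Uc) :=
    L1.congAt 0 H2 (C.α Uc) (by rw [hπ1, h1c Uc uc hUc]; exact inV_iff.1 hc)
  have hd' : CongAt (C.tower hl X).m1 1 H2 (C.α Ud) :=
    L1.congAt 1 H2 (C.α Ud) (by rw [hπ1, h1c Ud ud hUd]; exact inV_iff.1 hd)
  have e0 : (((Ub * Ud * Ua ^ (m - 1) * Uc ^ (m - 1)) ^ (l - 1) : M0) : F0)
      = S.cst ((ub * ud * ua ^ (m - 1) * uc ^ (m - 1)) ^ (l - 1)) := by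
    simp only [Subring.coe_pow, Subring.coe_mul, hUa, hUb, hUc, hUd, map_pow, map_mul]
  have e1 : (((Ub * Ua ^ (m - 1)) ^ l * (Uc * Ud ^ (m - 1)) : M0) : F0)
      = S.cst ((ub * ua ^ (m - 1)) ^ l * (uc * ud ^ (m - 1))) := by
    simp only [Subring.coe_pow, Subring.coe_mul, hUa, hUb, hUc, hUd, map_pow, map_mul]
  have hl0' : CongAt (C.tower hl X).m2 0 lam
      (C.p1 (C.α ((Ub * Ud * Ua ^ (m - 1) * Uc ^ (m - 1)) ^ (l - 1)))) :=
    L2.congAt 0 lam _ (by rw [hπ2, h2c _ _ e0]; exact inV_iff.1 hl0)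
  have hl1' : CongAt (C.tower hl X).m2 1 lam
      (C.p1 (C.α ((Ub * Ua ^ (m - 1)) ^ l * (Uc * Ud ^ (m - 1))))) :=
    L2.congAt 1 lam _ (by rw [hπ2, h2c _ _ e1]; exact inV_iff.1 hl1)
  have hl2' : CongAt (C.tower hl X).m2 2 lam 1 :=
    L2.congAt 2 lam 1 (by
      rw [hπ2, map_one]
      rw [map_one] at hl2
      exact inV_iff.1 hl2)
  have hN1' : normHom S.al W = H1 ^ m := by rw [← S.NmA_eq]; exact hN1
  have hN2' : normHom S.be W = H2 ^ m := by rw [← S.NmB_eq]; exact hN2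
  obtain ⟨Y, ⟨r, hr⟩, b, r', hb, e⟩ := R.exists_lift_of_locSol (C.tower hl X).m2 m hm0
    (W ^ (l ^ 2 - 1) * lam ^ m) (fun n hn hπ =>
      R.chart_main (C.tower hl X) T hl m hm0 hm W lam hlam hOne hh H1 H2 hN1' hN2' Ua Ub Uc Ud
        ⟨hp Ua ua hUa hua, hp Ub ub hUb hub, hp Uc uc hUc huc, hp Ud ud hUd hud⟩
        ⟨hβ Ua ua hUa, hβ Ub ub hUb, hβ Uc uc hUc, hβ Ud ud hUd⟩
        ha' hb' hc' hd' hl0' hl1' hl2' n hn hπ)
  refine ⟨Y, ?_, ?_, ?_, ?_⟩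
  · rw [hr]; exact r.2
  · have := L2.int_of_vunit (Y - 1) b r' hb e 0
    rw [hπ2] at this
    exact inV_iff.2 this
  · have := L2.int_of_vunit (Y - 1) b r' hb e 1
    rw [hπ2] at this
    exact inV_iff.2 this
  · have := L2.int_of_vunit (Y - 1) b r' hb e 2
    rw [hπ2] at this
    exact inV_iff.2 this

end Chart

end Fermat.Agent.S36.Mod
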