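import Fermat.Agent.S36.Mod.Chart.Defs
import Fermat.Agent.S36.Val.Elems
import Fermat.Agent.S36.Mod.Chart.FinAux

/-!
# S36 / Mod / Chart / Models : the three `R.Model`s of a chart       (tasks `S36/MC-L0`, `S36/MC-L1`, `S36/MC-L2a`, `S36/MC-L2b`)

Pure bookkeeping with residues (`Val/Place.lean`: `APlace`, `IsRes`, `IsOrd`, `PlaceHom`; `Chart/Defs.lean`).  No modular forms.
NOTATION  `π₀ = S.cst S.π`, `π₁ = S.a0 π₀`, `π₂ = S.c2 S.π = S.al π₁`.   `C.res_r0`, `C.res_r1_0`, … : `C.r* c f` IS the residue of `f`.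
To prove `C.ρ1 c f = 0` use `Subtype.ext` + `coe_ρ1` + `APlace.res_unique (C.res_r1_* f) _`.

GENERAL FACTS to prove first (put them in this file):
 (a) residue `0` at a place with uniformiser `ϖ` ⟹ divisible: `IsRes.exists_eq_unif_mul` (`Val/Place.lean` l. 383):
     `IsRes inc red a 0 → ∃ a', InV a' ∧ a = inc ϖ * a'` (look at its exact form).  `S.Φ'_π : Φ' (cst π) = inc ϖ`, and
     `Ψinf π₁ = inc ϖ` (`Ψinf_a0`), `Ψ0 π₁ = V (inc ϖ) = inc (VO ϖ) = inc ϖ` (`Ψ0_a0`, `hV.comm_inc`, `hVϖ`), `Φinf π₂ = inc ϖ`, `Φ0 π₂ = inc ϖ`,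
     `τ i π₂ = base (inc ϖ) = inc1 (baseO ϖ) = inc1 (u * lam ^ (l-1))`.
 (b) LEVEL 0.  `dvd_of_ρ0`: `f/π₀` is integral by (a), so `f/π₀ ∈ M0` (`sat0`), `f = π₀ * (f/π₀)` (`π₀ ≠ 0` because `Φ' π₀ = inc ϖ ≠ 0`, `IsPlace.unif_ne_zero`).
 (c) LEVEL 1.  `ρ1_surj`: `ρ1 0 (α g) = ρ0 g`, `ρ1 1 (β g) = ρ0 g` (`Ψinf_a0`, `Ψ0_b0`).  `ρ1_sep`: with `x, c` from `exX`:
     `u = β x - (α x)^l` has residues `(V c - c^l, c - (V c)^l) = (0, c - c^(l²))`; `u' = (β x)^l - α x` has residues `(c^(l²) - c, 0)`.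
 (d) LEVEL 2.  `ρ2_surj`: `ρ2 0 (p1 (α g)) = ρ0 g = ρ2 1 (p1 (α g))`, `ρ2 2 (p2 (β g)) = ρ0 g`.
     `ρ2_sep`: `X0 = p1 (α x)`, `X2 = p2 (β x)`: residues of `X0`: `(c, c, V V c = c^(l²))`, of `X2`: `(c^(l²), c, c)` (`τ_be`, `htw`, `hbase`).
     `u∞ = X2 - X0^(l²)`: `(0, c - c^(l²), c - c^(l⁴))`; `um = X2 - X0`: `(c^(l²) - c, 0, c - c^(l²))`; `u0 = X2^(l²) - X0`: `(c^(l⁴) - c, c^(l²) - c, 0)`.
     `ρ2_pow`: `c = 0`: `t = um^(l-1) * u0`; `t f / π₂` is integral at `∞` (a), at `0` (a) for `u0`, at `mid`: `τ um = lam * a`, so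
       `τ (um^(l-1)) = lam^(l-1) a^(l-1) = τ π₂ * (inc1 u)⁻¹ a^(l-1)` and `inc1 u` is a unit of `V'` (`S.hu`, `isRes_inc`, `IsRes.inv`).
       `c = 2`: symmetric (`t = um^(l-1) * u∞`).   `c = 1`: `t = u∞ * u0`, `f^(l-1)` as `um^(l-1)` above.
     `ρ2_sat`: `t a = π₂ b`, `b ∈ M2` integral at the place `c`, `t` a unit there (`IsRes.div`/`APlace.res_div`): `a/π₂ = b/t` is integral at `c`.
-/

set_option autoImplicit false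

namespace Fermat.Agent.S36.Mod

open Fermat.Agent.Crux.G.QLink Fermat.Agent.S36.Val Fermat.Agent.S36.R

variable {l : ℕ} {K F0 F1 F2 Ω O κ Ω1 O1 ι μ : Type*} [Field K] [Field F0] [Field F1]
    [Field F2] [Field Ω] [CommRing O] [Field κ] [Field Ω1] [CommRing O1] [Fintype ι]
    [Fintype μ]

namespace Chart

variable {S : Setup l K F0 F1 F2 Ω O κ Ω1 O1 ι μ} {i₀ : ι} {b0 : F0 →+* F1}
    {w1 : F1 →+* F1} {w2 : F2 →+* F2}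
    {M0 : Subring F0} {M1 : Subring F1} {M2 : Subring F2}
    (C : Chart S i₀ b0 w1 w2 M0 M1 M2)

/-! ### level 0  (task `S36/MC-L0`) -/

theorem ρ0_surj : Function.Surjective C.ρ0 := C.r0.rangeRestrict_surjective

theorem ρ0_pi : C.ρ0 C.pi = 0 := by
  apply Subtype.ext
  rw [coe_ρ0]
  refine S.R.res_unique (C.res_r0 C.pi) ?_
  change IsRes S.inc S.red (S.Φ' (S.cst S.π)) 0
  rw [S.Φ'_π]
  have := isRes_inc (inc := S.inc) (red := S.red) S.ϖ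
  rwa [S.P.red_unif] at this

theorem dvd_of_ρ0 (f : M0) (h : C.ρ0 f = 0) : C.pi ∣ f := by
  have h0 : C.r0 f = 0 := by
    rw [← coe_ρ0, h]
    rfl
  have h1 : IsRes S.inc S.red (S.Φ' (f : F0)) 0 := by
    have := C.res_r0 f
    rw [h0] at this
    exact this
  obtain ⟨a', ha', e⟩ := h1.exists_eq_unif_mul S.P
  have hπ : S.cst S.π ≠ 0 := by
    intro h2
    have := S.Φ'_π
    rw [h2, map_zero] at this
    exact S.P.unif_ne_zero this.symm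
  have h2 : S.Φ' ((f : F0) / S.cst S.π) = a' := by
    rw [map_div₀, S.Φ'_π, e, mul_div_cancel_left₀ _ S.P.unif_ne_zero]
  have h3 := C.sat0 _ f.2 (by rw [h2]; exact ha')
  refine ⟨⟨_, h3⟩, ?_⟩
  apply Subtype.ext
  change (f : F0) = S.cst S.π * ((f : F0) / S.cst S.π)
  rw [mul_div_cancel₀ _ hπ]

/-! ### the compatibilities  (task `S36/MC-L0`) -/

theorem r1_0_α (f : M0) : C.ρ1 0 (C.α f) = C.ρ0 f := by
  apply Subtype.ext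
  rw [coe_ρ1, coe_ρ0]
  refine S.Qinf.res_unique (C.res_r1_0 _) ?_
  change IsRes S.inc S.red (S.Ψinf (S.a0 f)) _
  rw [S.Ψinf_a0]
  exact C.res_r0 f

theorem r1_0_β (f : M0) : C.ρ1 0 (C.β f) = C.Fr (C.ρ0 f) := by
  apply Subtype.ext
  rw [coe_ρ1, coe_Fr, coe_ρ0]
  refine S.Qinf.res_unique (C.res_r1_0 _) ?_
  change IsRes S.inc S.red (S.Ψinf (b0 f)) _
  rw [C.Ψinf_b0]
  exact S.hV.isRes (C.res_r0 f)

theorem r1_1_α (f : M0) : C.ρ1 1 (C.α f) = C.Fr (C.ρ0 f) := by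
  apply Subtype.ext
  rw [coe_ρ1, coe_Fr, coe_ρ0]
  refine S.Q0.res_unique (C.res_r1_1 _) ?_
  change IsRes S.inc S.red (S.Ψ0 (S.a0 f)) _
  rw [S.Ψ0_a0]
  exact S.hV.isRes (C.res_r0 f)

theorem r1_1_β (f : M0) : C.ρ1 1 (C.β f) = C.ρ0 f := by
  apply Subtype.ext
  rw [coe_ρ1, coe_ρ0]
  refine S.Q0.res_unique (C.res_r1_1 _) ?_
  change IsRes S.inc S.red (S.Ψ0 (b0 f)) _
  rw [C.Ψ0_b0]
  exact C.res_r0 f

theorem r2_0_p1 (g : M1) : C.ρ2 0 (C.p1 g) = C.ρ1 0 g := by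
  apply Subtype.ext
  rw [coe_ρ2, coe_ρ1]
  refine S.Pinf.res_unique (C.res_r2_0 _) ?_
  change IsRes S.inc S.red (S.Φinf (S.al g)) _
  rw [S.Φinf_al]
  exact C.res_r1_0 g

theorem r2_1_p1 (g : M1) : C.ρ2 1 (C.p1 g) = C.ρ1 0 g := by
  apply Subtype.ext
  rw [coe_ρ2, coe_ρ1]
  refine (S.Pm i₀).res_unique (C.res_r2_1 _) ?_
  change IsRes S.inc1 S.red1 (S.τ i₀ (S.al g)) _
  rw [S.τ_al]
  exact S.hbase.isRes (C.res_r1_0 g)

theorem r2_2_p1 (g : M1) : C.ρ2 2 (C.p1 g) = C.Fr (C.ρ1 1 g) := by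
  apply Subtype.ext
  rw [coe_ρ2, coe_Fr, coe_ρ1]
  refine S.P0.res_unique (C.res_r2_2 _) ?_
  change IsRes S.inc S.red (S.Φ0 (S.al g)) _
  rw [S.Φ0_al]
  exact S.hV.isRes (C.res_r1_1 g)

theorem r2_0_p2 (g : M1) : C.ρ2 0 (C.p2 g) = C.Fr (C.ρ1 0 g) := by
  apply Subtype.ext
  rw [coe_ρ2, coe_Fr, coe_ρ1]
  refine S.Pinf.res_unique (C.res_r2_0 _) ?_
  change IsRes S.inc S.red (S.Φinf (S.be g)) _
  rw [S.Φinf_be]
  exact S.hV.isRes (C.res_r1_0 g)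

theorem r2_1_p2 (g : M1) : C.ρ2 1 (C.p2 g) = C.ρ1 1 g := by
  apply Subtype.ext
  rw [coe_ρ2, coe_ρ1]
  refine (S.Pm i₀).res_unique (C.res_r2_1 _) ?_
  change IsRes S.inc1 S.red1 (S.τ i₀ (S.be g)) _
  rw [S.τ_be]
  exact (S.htw _).isRes (S.hbase.isRes (C.res_r1_1 g))

theorem r2_2_p2 (g : M1) : C.ρ2 2 (C.p2 g) = C.ρ1 1 g := by
  apply Subtype.ext
  rw [coe_ρ2, coe_ρ1]
  refine S.P0.res_unique (C.res_r2_2 _) ?_
  change IsRes S.inc S.red (S.Φ0 (S.be g)) _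
  rw [S.Φ0_be]
  exact C.res_r1_1 g

theorem Fr_inj : Function.Injective C.Fr := by
  intro r r' h
  apply Subtype.ext
  have := congrArg Subtype.val h
  rw [coe_Fr, coe_Fr] at this
  exact S.Vκ.injective this

theorem Fr_insep (r : C.Rr) : ∃ r', C.Fr r' = r ^ l := by
  obtain ⟨g, hg⟩ := r.2
  obtain ⟨g', hg', c', hc', e⟩ := C.insep _ g.2 _ (C.res_r0 g)
  refine ⟨C.ρ0 ⟨g', hg'⟩, ?_⟩
  apply Subtype.ext
  rw [coe_Fr, coe_ρ0, S.R.res_unique (C.res_r0 ⟨g', hg'⟩) hc', e, hg]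
  rfl

theorem beta_pi : C.β C.pi = C.α C.pi := by
  apply Subtype.ext
  exact C.b0_cst _

theorem comm (f : M0) : C.p1 (C.β f) = C.p2 (C.α f) := by
  apply Subtype.ext
  exact C.al_b0 _

theorem α_inj : Function.Injective C.α := by
  intro f f' h
  apply Subtype.ext
  exact S.a0.injective (congrArg Subtype.val h)

theorem β_inj : Function.Injective C.β := by
  intro f f' h
  apply Subtype.ext
  exact b0.injective (congrArg Subtype.val h)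

theorem p1_inj : Function.Injective C.p1 := by
  intro f f' h
  apply Subtype.ext
  exact S.al.injective (congrArg Subtype.val h)

theorem p2_inj : Function.Injective C.p2 := by
  intro f f' h
  apply Subtype.ext
  exact S.be.injective (congrArg Subtype.val h)

theorem hchar' (n : ℕ) (hn : n ≠ 0) : ∃ k, (n : M0) ∣ C.pi ^ k := by
  obtain ⟨k, u, hu, e⟩ := C.hchar n hn
  refine ⟨k, ⟨u, hu⟩, ?_⟩
  apply Subtype.ext
  change ((C.pi ^ k : M0) : F0) = (((n : M0) * ⟨u, hu⟩ : M0) : F0)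
  rw [Subring.coe_pow, Subring.coe_mul, Subring.coe_natCast, coe_pi, e]

/-! ### level 1  (task `S36/MC-L1`) -/

theorem ρ1_surj (c : Fin 2) : Function.Surjective (C.ρ1 c) := by
  intro r
  obtain ⟨g, rfl⟩ := C.ρ0_surj r
  fin_cases c
  · exact ⟨C.α g, C.r1_0_α g⟩
  · exact ⟨C.β g, C.r1_1_β g⟩

theorem ρ1_pi (c : Fin 2) : C.ρ1 c (C.α C.pi) = 0 := by
  fin_cases c
  · exact (C.r1_0_α _).trans C.ρ0_pi
  · exact (C.r1_1_α _).trans (by rw [C.ρ0_pi, map_zero])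

omit C in
theorem L1_Ψinf_pi : S.Ψinf (S.a0 (S.cst S.π)) = S.inc S.ϖ := by
  rw [S.Ψinf_a0, S.Φ'_π]

omit C in
theorem L1_Ψ0_pi : S.Ψ0 (S.a0 (S.cst S.π)) = S.inc S.ϖ := by
  rw [S.Ψ0_a0, S.Φ'_π, S.hV.comm_inc, S.hVϖ]

theorem dvd_of_ρ1 (f : M1) (h : ∀ c, C.ρ1 c f = 0) : C.α C.pi ∣ f := by
  have hπ : S.a0 (S.cst S.π) ≠ 0 := by
    intro h0
    have := L1_Ψinf_pi (S := S)
    rw [h0, map_zero] at this
    exact S.P.unif_ne_zero this.symm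
  have h0 : IsRes S.inc S.red (S.Ψinf (f : F1)) 0 := by
    have h1 := C.res_r1_0 f
    have h2 : C.r1 0 f = 0 := by rw [← C.coe_ρ1, h 0]; rfl
    rw [h2] at h1
    exact h1
  have h1 : IsRes S.inc S.red (S.Ψ0 (f : F1)) 0 := by
    have h1 := C.res_r1_1 f
    have h2 : C.r1 1 f = 0 := by rw [← C.coe_ρ1, h 1]; rfl
    rw [h2] at h1
    exact h1
  have hint : S.Int2 ((f : F1) / S.a0 (S.cst S.π)) := by
    constructor
    · obtain ⟨a', ha', e⟩ := h0.exists_eq_unif_mul S.P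
      rw [map_div₀, L1_Ψinf_pi, e, mul_div_cancel_left₀ _ S.P.unif_ne_zero]
      exact ha'
    · obtain ⟨a', ha', e⟩ := h1.exists_eq_unif_mul S.P
      rw [map_div₀, L1_Ψ0_pi, e, mul_div_cancel_left₀ _ S.P.unif_ne_zero]
      exact ha'
  refine ⟨⟨_, C.sat1 _ f.2 hint⟩, Subtype.ext ?_⟩
  show (f : F1) = S.a0 (S.cst S.π) * ((f : F1) / S.a0 (S.cst S.π))
  rw [mul_div_cancel₀ _ hπ]

theorem ρ1_sep (hl : 2 ≤ l) (c c' : Fin 2) (h : c ≠ c') : ∃ u, C.ρ1 c' u = 0 ∧ C.ρ1 c u ≠ 0 := by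
  obtain ⟨x, hx, cc, hres, hV, hne⟩ := C.exX
  have hX : ((C.ρ0 ⟨x, hx⟩ : C.Rr) : κ) = cc := S.R.res_unique (C.res_r0 ⟨x, hx⟩) hres
  have hFr : C.Fr (C.ρ0 ⟨x, hx⟩) = C.ρ0 ⟨x, hx⟩ ^ l := by
    apply Subtype.ext
    rw [C.coe_Fr, hX, hV]
    show _ = ((C.ρ0 ⟨x, hx⟩ : C.Rr) : κ) ^ l
    rw [hX]
  have hl2 : 1 < l * l := by nlinarith
  have hne' : C.ρ0 ⟨x, hx⟩ ^ (l * l) ≠ C.ρ0 ⟨x, hx⟩ := by
    intro h0
    apply hne _ hl2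
    have := congrArg (Subtype.val) h0
    rw [← hX]
    exact this
  have key0 : ∃ u, C.ρ1 1 u = 0 ∧ C.ρ1 0 u ≠ 0 := by
    refine ⟨C.β ⟨x, hx⟩ ^ l - C.α ⟨x, hx⟩, ?_, ?_⟩
    · rw [map_sub, map_pow, C.r1_1_β, C.r1_1_α, hFr, sub_self]
    · rw [map_sub, map_pow, C.r1_0_β, C.r1_0_α, hFr, ← pow_mul, sub_ne_zero]
      exact hne'
  have key1 : ∃ u, C.ρ1 0 u = 0 ∧ C.ρ1 1 u ≠ 0 := by
    refine ⟨C.β ⟨x, hx⟩ - C.α ⟨x, hx⟩ ^ l, ?_, ?_⟩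
    · rw [map_sub, map_pow, C.r1_0_β, C.r1_0_α, hFr, sub_self]
    · rw [map_sub, map_pow, C.r1_1_β, C.r1_1_α, hFr, ← pow_mul, sub_ne_zero]
      exact hne'.symm
  fin_cases c <;> fin_cases c'
  · exact absurd rfl h
  · exact key0
  · exact key1
  · exact absurd rfl h

theorem ρ1_pow (hl : 2 ≤ l) (c : Fin 2) (f : M1) (h : C.ρ1 c f = 0) :
    ∃ t, C.ρ1 c t ≠ 0 ∧ C.α C.pi ∣ t * f ^ 1 := by
  obtain ⟨c', hc'⟩ : ∃ c' : Fin 2, c ≠ c' := by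
    fin_cases c
    · exact ⟨1, by decide⟩
    · exact ⟨0, by decide⟩
  obtain ⟨t, ht0, ht⟩ := C.ρ1_sep hl c c' hc'
  refine ⟨t, ht, C.dvd_of_ρ1 _ fun d => ?_⟩
  rw [pow_one, map_mul]
  have hd : d = c ∨ d = c' := by
    revert hc'
    fin_cases c <;> fin_cases c' <;> fin_cases d <;> simp
  rcases hd with rfl | rfl
  · rw [h, mul_zero]
  · rw [ht0, zero_mul]

theorem ρ1_sat (a : M1) (h : ∀ c, ∃ t, C.ρ1 c t ≠ 0 ∧ C.α C.pi ∣ t * a) : C.α C.pi ∣ a := by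
  refine C.dvd_of_ρ1 a fun c => ?_
  obtain ⟨t, ht, b, hb⟩ := h c
  have h1 : C.ρ1 c t * C.ρ1 c a = 0 := by rw [← map_mul, hb, map_mul, C.ρ1_pi, zero_mul]
  exact (mul_eq_zero.1 h1).resolve_left ht

/-! ### level 2  (tasks `S36/MC-L2a`: `ρ2_surj, ρ2_pi, dvd_of_int3, ρ2_sep`;  `S36/MC-L2b`: `ρ2_pow, ρ2_sat`) -/

/-- the multiplicities at level 2. -/
def e2 (l : ℕ) : Fin 3 → ℕ
  | 0 => 1
  | 1 => l - 1
  | 2 => 1

theorem ρ2_surj (c : Fin 3) : Function.Surjective (C.ρ2 c) := by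
  intro r
  obtain ⟨g, rfl⟩ := C.ρ0_surj r
  fin_cases c
  · exact ⟨C.p1 (C.α g), (C.r2_0_p1 _).trans (C.r1_0_α g)⟩
  · exact ⟨C.p1 (C.α g), (C.r2_1_p1 _).trans (C.r1_0_α g)⟩
  · exact ⟨C.p2 (C.β g), (C.r2_2_p2 _).trans (C.r1_1_β g)⟩

theorem ρ2_pi (hl : 2 ≤ l) (c : Fin 3) : C.ρ2 c (C.p1 (C.α C.pi)) = 0 := by
  fin_cases c
  · exact (C.r2_0_p1 _).trans ((C.r1_0_α _).trans C.ρ0_pi)
  · exact (C.r2_1_p1 _).trans ((C.r1_0_α _).trans C.ρ0_pi)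
  · show C.ρ2 2 (C.p1 (C.α C.pi)) = 0
    rw [C.r2_2_p1, C.r1_1_α, C.ρ0_pi, map_zero, map_zero]

theorem c2_π_ne_zero : S.c2 S.π ≠ 0 := by
  have h : S.π ≠ 0 := by
    intro h
    have h1 := S.Φ'_π
    rw [h, map_zero, map_zero] at h1
    exact S.P.unif_ne_zero h1.symm
  exact (map_ne_zero _).2 h

theorem dvd_of_int3 (f : M2) (h : S.Int3 i₀ ((f : F2) / S.c2 S.π)) : C.p1 (C.α C.pi) ∣ f := by
  refine ⟨⟨_, C.sat2 f f.2 h⟩, Subtype.ext ?_⟩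
  show (f : F2) = S.c2 S.π * ((f : F2) / S.c2 S.π)
  rw [mul_div_cancel₀ _ c2_π_ne_zero]

/-- **the three separators** `u∞, um, u0` of level 2 with their nine residues
(`u∞ = X2 - X0^(l²)`, `um = X2 - X0`, `u0 = X2^(l²) - X0`, `X0 = p1 (α x)`, `X2 = p2 (β x)`). -/
theorem exists_sep3 (hl : 2 ≤ l) : ∃ uinf um u0 : M2,
    (C.ρ2 0 uinf = 0 ∧ C.ρ2 1 uinf ≠ 0 ∧ C.ρ2 2 uinf ≠ 0) ∧
    (C.ρ2 0 um ≠ 0 ∧ C.ρ2 1 um = 0 ∧ C.ρ2 2 um ≠ 0) ∧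
    (C.ρ2 0 u0 ≠ 0 ∧ C.ρ2 1 u0 ≠ 0 ∧ C.ρ2 2 u0 = 0) := by
  obtain ⟨x, hx, c, hc, hV, hne⟩ := C.exX
  set X : M0 := ⟨x, hx⟩ with hX
  set r : C.Rr := C.ρ0 X with hr
  have hrc : (r : κ) = c := S.R.res_unique (C.res_r0 X) hc
  have hFr : C.Fr r = r ^ l := by
    apply Subtype.ext
    rw [C.coe_Fr, hrc, hV, SubmonoidClass.coe_pow, hrc]
  have hFr2 : C.Fr (C.Fr r) = r ^ (l ^ 2) := by
    rw [hFr, map_pow, hFr, ← pow_mul, sq]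
  have hne' : ∀ k : ℕ, 1 < k → r ^ k ≠ r := by
    intro k hk h
    apply hne k hk
    rw [← hrc, ← SubmonoidClass.coe_pow, h]
  have hl2 : 1 < l ^ 2 := by nlinarith
  have hl4 : 1 < l ^ 2 * l ^ 2 := by nlinarith
  have a0 : C.ρ2 0 (C.p1 (C.α X)) = r := (C.r2_0_p1 _).trans (C.r1_0_α _)
  have a1 : C.ρ2 1 (C.p1 (C.α X)) = r := (C.r2_1_p1 _).trans (C.r1_0_α _)
  have a2 : C.ρ2 2 (C.p1 (C.α X)) = r ^ (l ^ 2) := by rw [C.r2_2_p1, C.r1_1_α, hFr2]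
  have b0 : C.ρ2 0 (C.p2 (C.β X)) = r ^ (l ^ 2) := by rw [C.r2_0_p2, C.r1_0_β, hFr2]
  have b1 : C.ρ2 1 (C.p2 (C.β X)) = r := (C.r2_1_p2 _).trans (C.r1_1_β _)
  have b2 : C.ρ2 2 (C.p2 (C.β X)) = r := (C.r2_2_p2 _).trans (C.r1_1_β _)
  refine ⟨C.p2 (C.β X) - C.p1 (C.α X) ^ (l ^ 2), C.p2 (C.β X) - C.p1 (C.α X),
    C.p2 (C.β X) ^ (l ^ 2) - C.p1 (C.α X), ⟨?_, ?_, ?_⟩, ⟨?_, ?_, ?_⟩, ⟨?_, ?_, ?_⟩⟩
  · rw [map_sub, map_pow, a0, b0, sub_self]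
  · rw [map_sub, map_pow, a1, b1, sub_ne_zero]
    exact (hne' _ hl2).symm
  · rw [map_sub, map_pow, a2, b2, sub_ne_zero, ← pow_mul]
    exact (hne' _ hl4).symm
  · rw [map_sub, a0, b0, sub_ne_zero]
    exact hne' _ hl2
  · rw [map_sub, a1, b1, sub_self]
  · rw [map_sub, a2, b2, sub_ne_zero]
    exact (hne' _ hl2).symm
  · rw [map_sub, map_pow, a0, b0, sub_ne_zero, ← pow_mul]
    exact hne' _ hl4
  · rw [map_sub, map_pow, a1, b1, sub_ne_zero]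
    exact hne' _ hl2
  · rw [map_sub, map_pow, a2, b2, sub_self]

theorem ρ2_sep (hl : 2 ≤ l) (c c' : Fin 3) (h : c ≠ c') : ∃ u, C.ρ2 c' u = 0 ∧ C.ρ2 c u ≠ 0 := by
  obtain ⟨uinf, um, u0, ⟨h00, h01, h02⟩, ⟨h10, h11, h12⟩, ⟨h20, h21, h22⟩⟩ := C.exists_sep3 hl
  fin_cases c <;> fin_cases c'
  · exact absurd rfl h
  · exact ⟨um, h11, h10⟩
  · exact ⟨u0, h22, h20⟩
  · exact ⟨uinf, h00, h01⟩
  · exact absurd rfl h
  · exact ⟨u0, h22, h21⟩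
  · exact ⟨uinf, h00, h02⟩
  · exact ⟨um, h11, h12⟩
  · exact absurd rfl h

theorem ρ2_pow (hl : 2 ≤ l) (c : Fin 3) (f : M2) (h : C.ρ2 c f = 0) :
    ∃ t, C.ρ2 c t ≠ 0 ∧ C.p1 (C.α C.pi) ∣ t * f ^ e2 l c := by
  -- abstract facts on places
  have pos_of_res : ∀ (P : APlace F2 κ) {n : ℤ} {y : F2}, P.Ord n y → P.Res y 0 → 0 < n := by
    intro P n y hn h0
    by_contra hle
    rcases (not_lt.1 hle).eq_or_lt with h1 | h1
    · subst h1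
      obtain ⟨c, hc, hr⟩ := P.ord_zero_iff.1 hn
      exact hc (P.res_unique hr h0)
    · have h2 := P.res_of_pos (P.ord_inv hn) (by omega)
      have h3 := P.res_mul h0 h2
      rw [mul_inv_cancel₀ (P.ord_ne_zero hn), mul_zero] at h3
      exact one_ne_zero (P.res_unique P.res_one h3)
  have res_of_nonneg : ∀ (P : APlace F2 κ) {n : ℤ} {y : F2}, P.Ord n y → 0 ≤ n →
      ∃ c, P.Res y c := by
    intro P n y hn h0
    rcases h0.eq_or_lt with h1 | h1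
    · subst h1
      obtain ⟨c, -, hr⟩ := P.ord_zero_iff.1 hn
      exact ⟨c, hr⟩
    · exact ⟨0, P.res_of_pos hn h1⟩
  have key : ∀ (P : APlace F2 κ) (e : ℕ) (ϖ g : F2), e ≠ 0 → P.Ord (e : ℤ) ϖ → P.Res g 0 →
      ∃ d, P.Res (g ^ e / ϖ) d := by
    intro P e ϖ g he hϖ hg
    by_cases hg0 : g = 0
    · rw [hg0, zero_pow he, zero_div]
      exact ⟨0, P.res_zero⟩
    · obtain ⟨n, hn⟩ := P.ord_exists g hg0
      have hpos := pos_of_res P hn hg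
      have h1 := P.ord_div (P.ord_pow hn e) hϖ
      refine res_of_nonneg P h1 ?_
      have he' : (0 : ℤ) ≤ e := by positivity
      nlinarith
  have lemA : ∀ g₀ g₁ g₂ : M2, C.ρ2 0 g₀ = 0 → C.ρ2 1 g₁ = 0 → C.ρ2 2 g₂ = 0 →
      C.p1 (C.α C.pi) ∣ g₀ * g₁ ^ (l - 1) * g₂ := by
    intro g₀ g₁ g₂ h0 h1 h2
    obtain ⟨o0, o1, o2⟩ := S.ord_π hl i₀
    have r0 : S.Pinf.Res (g₀ : F2) 0 := by
      have := C.res_r2_0 g₀
      rwa [← C.coe_ρ2, h0] at this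
    have r1 : (S.Pm i₀).Res (g₁ : F2) 0 := by
      have := C.res_r2_1 g₁
      rwa [← C.coe_ρ2, h1] at this
    have r2 : S.P0.Res (g₂ : F2) 0 := by
      have := C.res_r2_2 g₂
      rwa [← C.coe_ρ2, h2] at this
    have o1' : (S.Pm i₀).Ord ((l - 1 : ℕ) : ℤ) (S.c2 S.π) := by
      rwa [Nat.cast_sub (by omega : 1 ≤ l), Nat.cast_one]
    apply C.dvd_of_int3
    refine ⟨?_, ?_, ?_⟩
    · obtain ⟨d, hd⟩ := key S.Pinf 1 _ _ one_ne_zero (by simpa using o0) r0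
      have h3 := S.Pinf.res_mul hd
        (S.Pinf.res_mul (S.Pinf.res_pow (C.res_r2_0 g₁) (l - 1)) (C.res_r2_0 g₂))
      have e : ((g₀ * g₁ ^ (l - 1) * g₂ : M2) : F2) / S.c2 S.π
          = (g₀ : F2) ^ 1 / S.c2 S.π * ((g₁ : F2) ^ (l - 1) * g₂) := by
        push_cast; ring
      rw [e]
      exact IsRes.inV h3
    · obtain ⟨d, hd⟩ := key (S.Pm i₀) (l - 1) _ _ (by omega) o1' r1
      have h3 := (S.Pm i₀).res_mul hd ((S.Pm i₀).res_mul (C.res_r2_1 g₀) (C.res_r2_1 g₂))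
      have e : ((g₀ * g₁ ^ (l - 1) * g₂ : M2) : F2) / S.c2 S.π
          = (g₁ : F2) ^ (l - 1) / S.c2 S.π * ((g₀ : F2) * g₂) := by
        push_cast; ring
      rw [e]
      exact IsRes.inV h3
    · obtain ⟨d, hd⟩ := key S.P0 1 _ _ one_ne_zero (by simpa using o2) r2
      have h3 := S.P0.res_mul hd
        (S.P0.res_mul (C.res_r2_2 g₀) (S.P0.res_pow (C.res_r2_2 g₁) (l - 1)))
      have e : ((g₀ * g₁ ^ (l - 1) * g₂ : M2) : F2) / S.c2 S.π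
          = (g₂ : F2) ^ 1 / S.c2 S.π * ((g₀ : F2) * (g₁ : F2) ^ (l - 1)) := by
        push_cast; ring
      rw [e]
      exact IsRes.inV h3
  match c, h with
  | 0, h =>
    obtain ⟨u₁, hu₁, hu₁'⟩ := C.ρ2_sep hl 0 1 (by decide)
    obtain ⟨u₂, hu₂, hu₂'⟩ := C.ρ2_sep hl 0 2 (by decide)
    refine ⟨u₁ ^ (l - 1) * u₂, ?_, ?_⟩
    · rw [map_mul, map_pow]
      exact mul_ne_zero (pow_ne_zero _ hu₁') hu₂'
    · have e : u₁ ^ (l - 1) * u₂ * f ^ e2 l 0 = f * u₁ ^ (l - 1) * u₂ := by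
        change u₁ ^ (l - 1) * u₂ * f ^ 1 = _
        ring
      rw [e]
      exact lemA f u₁ u₂ h hu₁ hu₂
  | 1, h =>
    obtain ⟨u₀, hu₀, hu₀'⟩ := C.ρ2_sep hl 1 0 (by decide)
    obtain ⟨u₂, hu₂, hu₂'⟩ := C.ρ2_sep hl 1 2 (by decide)
    refine ⟨u₀ * u₂, ?_, ?_⟩
    · rw [map_mul]
      exact mul_ne_zero hu₀' hu₂'
    · have e : u₀ * u₂ * f ^ e2 l 1 = u₀ * f ^ (l - 1) * u₂ := by
        change u₀ * u₂ * f ^ (l - 1) = _
        ring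
      rw [e]
      exact lemA u₀ f u₂ hu₀ h hu₂
  | 2, h =>
    obtain ⟨u₀, hu₀, hu₀'⟩ := C.ρ2_sep hl 2 0 (by decide)
    obtain ⟨u₁, hu₁, hu₁'⟩ := C.ρ2_sep hl 2 1 (by decide)
    refine ⟨u₀ * u₁ ^ (l - 1), ?_, ?_⟩
    · rw [map_mul, map_pow]
      exact mul_ne_zero hu₀' (pow_ne_zero _ hu₁')
    · have e : u₀ * u₁ ^ (l - 1) * f ^ e2 l 2 = u₀ * u₁ ^ (l - 1) * f := by
        change u₀ * u₁ ^ (l - 1) * f ^ 1 = _
        ring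
      rw [e]
      exact lemA u₀ u₁ f hu₀ hu₁ h

theorem ρ2_sat (a : M2) (h : ∀ c, ∃ t, C.ρ2 c t ≠ 0 ∧ C.p1 (C.α C.pi) ∣ t * a) :
    C.p1 (C.α C.pi) ∣ a := by
  have hπ : S.c2 S.π ≠ 0 := by
    have h1 : S.Φinf (S.c2 S.π) = S.inc S.ϖ := by
      change S.Φinf (S.i0 (S.cst S.π)) = _
      rw [S.Φinf_i0, S.Φ'_π]
    intro h0
    rw [h0, map_zero] at h1
    exact S.P.unif_ne_zero h1.symm
  have key : ∀ (P : APlace F2 κ) (t b : F2) (ct cb : κ), P.Res t ct → ct ≠ 0 → P.Res b cb →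
      t * (a : F2) = S.c2 S.π * b → P.Res ((a : F2) / S.c2 S.π) (cb / ct) := by
    intro P t b ct cb ht hct hb e
    have ht0 : t ≠ 0 := P.ord_ne_zero (P.ord_of_res ht hct)
    have e' : (a : F2) / S.c2 S.π = b / t := by
      rw [div_eq_div_iff hπ ht0]
      linear_combination e
    rw [e']
    exact P.res_div hb ht hct
  have hne : ∀ (c : Fin 3) (t : M2), C.ρ2 c t ≠ 0 → C.r2 c t ≠ 0 := by
    intro c t ht h0
    apply ht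
    apply Subtype.ext
    rw [C.coe_ρ2, h0]
    rfl
  have hmul : ∀ t b : M2, t * a = C.p1 (C.α C.pi) * b → (t : F2) * (a : F2) = S.c2 S.π * b := by
    intro t b e
    have := congrArg (Subtype.val) e
    exact this
  apply C.dvd_of_int3
  refine ⟨?_, ?_, ?_⟩
  · obtain ⟨t, ht, b, hb⟩ := h 0
    exact IsRes.inV (key S.Pinf t b _ _ (C.res_r2_0 t) (hne 0 t ht) (C.res_r2_0 b) (hmul t b hb))
  · obtain ⟨t, ht, b, hb⟩ := h 1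
    exact IsRes.inV (key (S.Pm i₀) t b _ _ (C.res_r2_1 t) (hne 1 t ht) (C.res_r2_1 b) (hmul t b hb))
  · obtain ⟨t, ht, b, hb⟩ := h 2
    exact IsRes.inV (key S.P0 t b _ _ (C.res_r2_2 t) (hne 2 t ht) (C.res_r2_2 b) (hmul t b hb))

/-! ### finite order of vanishing (`Model.fin`; helper47) -/

theorem ρ0_fin (d : M0) (hd : d ≠ 0) : ∃ (N : ℕ) (t : M0), C.ρ0 t ≠ 0 ∧ d ∣ t * C.pi ^ N := by
  classical
  have hord : S.R.Ord ((1 : ℕ) : ℤ) (S.cst S.π) := by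
    change IsOrd S.inc S.red S.ϖ _ (S.Φ' (S.cst S.π))
    rw [S.Φ'_π, Nat.cast_one]
    exact isOrd_unif S.P
  obtain ⟨N, t, ht, ⟨r, hr, htr⟩, b, hb, e⟩ := FinAux_main (J := Unit) (fun _ => S.R) M0
    (S.cst S.π) (fun _ => 1) (fun _ => one_pos) (fun _ => hord) (fun f hf _ => C.int0 f hf)
    (fun f hf h => C.sat0 f hf (inV_iff.2 (h ()))) () (fun j hj => absurd rfl hj) d d.2
    (fun h => hd (Subtype.ext h))
  refine ⟨N, ⟨t, ht⟩, ?_, ⟨b, hb⟩, Subtype.ext ?_⟩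
  · intro h0
    have h1 : C.r0 ⟨t, ht⟩ = 0 := by
      rw [← coe_ρ0, h0]
      rfl
    exact hr (S.R.res_unique htr (h1 ▸ C.res_r0 ⟨t, ht⟩))
  · rw [Subring.coe_mul, Subring.coe_pow, Subring.coe_mul]
    exact e

/-- the vertical places of level 1. -/
def pl1 (S : Setup l K F0 F1 F2 Ω O κ Ω1 O1 ι μ) : Fin 2 → APlace F1 κ
  | 0 => S.Qinf
  | 1 => S.Q0

/-- the vertical places of level 2. -/
def pl2 (S : Setup l K F0 F1 F2 Ω O κ Ω1 O1 ι μ) (i : ι) : Fin 3 → APlace F2 κ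
  | 0 => S.Pinf
  | 1 => S.Pm i
  | 2 => S.P0

theorem res_r1 (c : Fin 2) (f : M1) : (pl1 S c).Res (f : F1) (C.r1 c f) := by
  fin_cases c
  · exact C.res_r1_0 f
  · exact C.res_r1_1 f

theorem res_r2 (c : Fin 3) (f : M2) : (pl2 S i₀ c).Res (f : F2) (C.r2 c f) := by
  fin_cases c
  · exact C.res_r2_0 f
  · exact C.res_r2_1 f
  · exact C.res_r2_2 f

theorem ρ1_fin (hl : 2 ≤ l) (c : Fin 2) (d : M1) (hd : d ≠ 0) :
    ∃ (N : ℕ) (t : M1), C.ρ1 c t ≠ 0 ∧ d ∣ t * C.α C.pi ^ N := by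
  classical
  have hord : ∀ j, (pl1 S j).Ord ((1 : ℕ) : ℤ) (S.a0 (S.cst S.π)) := by
    intro j
    fin_cases j
    · change IsOrd S.inc S.red S.ϖ _ (S.Ψinf (S.a0 (S.cst S.π)))
      rw [S.Ψinf_a0, S.Φ'_π, Nat.cast_one]
      exact isOrd_unif S.P
    · change IsOrd S.inc S.red S.ϖ _ (S.Ψ0 (S.a0 (S.cst S.π)))
      rw [S.Ψ0_a0, S.Φ'_π, S.hV.comm_inc, S.hVϖ, Nat.cast_one]
      exact isOrd_unif S.P
  obtain ⟨N, t, ht, ⟨r, hr, htr⟩, b, hb, e⟩ := FinAux_main (pl1 S) M1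
    (S.a0 (S.cst S.π)) (fun _ => 1) (fun _ => one_pos) hord
    (fun f hf j => ⟨_, C.res_r1 j ⟨f, hf⟩⟩)
    (fun f hf h => C.sat1 f hf ⟨inV_iff.2 (h 0), inV_iff.2 (h 1)⟩) c
    (fun j hj => by
      obtain ⟨u, hu0, hu1⟩ := C.ρ1_sep hl c j (Ne.symm hj)
      refine ⟨u, u.2, ?_, C.r1 c u, ?_, C.res_r1 c u⟩
      · have h1 : C.r1 j u = 0 := by
          rw [← coe_ρ1, hu0]
          rfl
        exact h1 ▸ C.res_r1 j u
      · intro h1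
        exact hu1 (Subtype.ext h1)) d d.2 (fun h => hd (Subtype.ext h))
  refine ⟨N, ⟨t, ht⟩, ?_, ⟨b, hb⟩, Subtype.ext ?_⟩
  · intro h0
    have h1 : C.r1 c ⟨t, ht⟩ = 0 := by
      rw [← coe_ρ1, h0]
      rfl
    exact hr ((pl1 S c).res_unique htr (h1 ▸ C.res_r1 c ⟨t, ht⟩))
  · rw [Subring.coe_mul, Subring.coe_pow, Subring.coe_mul]
    exact e

theorem ρ2_fin (hl : 2 ≤ l) (c : Fin 3) (d : M2) (hd : d ≠ 0) :
    ∃ (N : ℕ) (t : M2), C.ρ2 c t ≠ 0 ∧ d ∣ t * C.p1 (C.α C.pi) ^ N := by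
  classical
  have he : ∀ j, 0 < e2 l j := by
    intro j
    fin_cases j
    · exact one_pos
    · change 0 < l - 1
      omega
    · exact one_pos
  have hord : ∀ j, (pl2 S i₀ j).Ord (e2 l j : ℤ) (S.c2 S.π) := by
    intro j
    obtain ⟨o1, o2, o3⟩ := S.ord_π hl i₀
    fin_cases j
    · change S.Pinf.Ord ((1 : ℕ) : ℤ) _
      rw [Nat.cast_one]
      exact o1
    · change (S.Pm i₀).Ord ((l - 1 : ℕ) : ℤ) _
      rw [Nat.cast_sub (by omega : 1 ≤ l), Nat.cast_one]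
      exact o2
    · change S.P0.Ord ((1 : ℕ) : ℤ) _
      rw [Nat.cast_one]
      exact o3
  obtain ⟨N, t, ht, ⟨r, hr, htr⟩, b, hb, e⟩ := FinAux_main (pl2 S i₀) M2
    (S.c2 S.π) (e2 l) he hord
    (fun f hf j => ⟨_, C.res_r2 j ⟨f, hf⟩⟩)
    (fun f hf h => C.sat2 f hf ⟨inV_iff.2 (h 0), inV_iff.2 (h 1), inV_iff.2 (h 2)⟩) c
    (fun j hj => by
      obtain ⟨u, hu0, hu1⟩ := C.ρ2_sep hl c j (Ne.symm hj)
      refine ⟨u, u.2, ?_, C.r2 c u, ?_, C.res_r2 c u⟩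
      · have h1 : C.r2 j u = 0 := by
          rw [← coe_ρ2, hu0]
          rfl
        exact h1 ▸ C.res_r2 j u
      · intro h1
        exact hu1 (Subtype.ext h1)) d d.2 (fun h => hd (Subtype.ext h))
  refine ⟨N, ⟨t, ht⟩, ?_, ⟨b, hb⟩, Subtype.ext ?_⟩
  · intro h0
    have h1 : C.r2 c ⟨t, ht⟩ = 0 := by
      rw [← coe_ρ2, h0]
      rfl
    exact hr ((pl2 S i₀ c).res_unique htr (h1 ▸ C.res_r2 c ⟨t, ht⟩))
  · rw [Subring.coe_mul, Subring.coe_pow, Subring.coe_mul]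
    exact e

/-! ### the models -/

/-- level `N`. -/
noncomputable def m0 : Model M0 C.Rr C.pi Unit where
  ρ _ := C.ρ0
  e _ := 1
  surj _ := C.ρ0_surj
  map_pi _ := C.ρ0_pi
  pow _ f h := ⟨1, by rw [map_one]; exact one_ne_zero, by
    rw [one_mul, pow_one]; exact C.dvd_of_ρ0 f h⟩
  sat a h := by
    obtain ⟨t, ht, hd⟩ := h ()
    apply C.dvd_of_ρ0
    obtain ⟨b, hb⟩ := hd
    have h1 : C.ρ0 t * C.ρ0 a = 0 := by rw [← map_mul, hb, map_mul, C.ρ0_pi, zero_mul]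
    exact (mul_eq_zero.1 h1).resolve_left ht
  sep c c' h := absurd rfl h
  fin _ := C.ρ0_fin

/-- level `N l`. -/
noncomputable def m1 (hl : 2 ≤ l) : Model M1 C.Rr (C.α C.pi) (Fin 2) where
  ρ := C.ρ1
  e _ := 1
  surj := C.ρ1_surj
  map_pi := C.ρ1_pi
  pow := C.ρ1_pow hl
  sat := C.ρ1_sat
  sep := C.ρ1_sep hl
  fin := C.ρ1_fin hl

/-- level `N l²`. -/
noncomputable def m2 (hl : 2 ≤ l) : Model M2 C.Rr (C.p1 (C.α C.pi)) (Fin 3) where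
  ρ := C.ρ2
  e := e2 l
  surj := C.ρ2_surj
  map_pi := C.ρ2_pi hl
  pow := C.ρ2_pow hl
  sat := C.ρ2_sat
  sep := C.ρ2_sep hl
  fin := C.ρ2_fin hl

end Chart

end Fermat.Agent.S36.Mod
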