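import Fermat.Agent.S36.Mod.Chart.Tower
import Fermat.Agent.Crux.G.LocalLifts
import Fermat.Agent.SS.GM2.Transfer

/-!
# S36 / Mod / Chart / Of : the chart `M_i = Mx A F_i t` (integral closure of `A[t]` in `F_i`)
   (tasks `S36/CO-mem`, `S36/CO-int`, `S36/CO-sat`, `S36/CO-res`)

`E = K(t)`, `F0, F1, F2` are `E`-algebras (through the inclusions `S.a0`, `S.al`), `t = x` or `x⁻¹`.  `QData` = the inputs:
q-link and normality at level `N` (from `Crux/GM`), `(D6)` (`b0 t` integral over `A[t]`), `j1, j2 ∈ O_F`, the identities for `b0, w1, w2`.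
Everything here is PURE ALGEBRA on top of `Crux/G` (`IntX`, `IsOLx`, `IsPiOLx`: unfold with `G.intX_iff`, `G.isOLx_iff`, `G.isPiOLx_iff`;
API: `G.IntX.mul/pow`, `G.IsOLx.add/sub`, `G.IntX.isOLx`, `G.intX_of_smul`, `SS.G2.IsOLx.mul'/pow'`, `SS.GM2.IntX.trans/add'/intX_algebraMap_iff/
intX_of_forall_valuationSubring`) and of `Val` (`APlace`, `IsRes`, `Setup.coords`, `coords1`, `res_of_coords`).

PROOFS.
* (mem) GENERAL LEMMA: `φ : F → F'` a ring hom with `φ (algebraMap A F a) = algebraMap A F' a`; `IntX A t f` (`t : E`), `IntX A t (φ (algebraMap E F t))`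
  ⟹ `IntX A t (φ f)`.  [apply `φ` to the monic equation: `φ f` is integral over `A[φ t]` (self chart `IntX A (φ t) (φ f)`, `E := F'`), then
  `SS.GM2.IntX.trans` + `intX_algebraMap_iff`.]  `a0, al`: `φ t = t`.  `b0`: `int_b0t`.  `be`: `be t = be (a0 t) = al (b0 t)`, `al_mem` of `int_b0t`.
  `w1`: `w1_t`.  `w2`: `w2_t`, `be_mem` of `int_b0t`.
* (int) GENERAL LEMMA: `P : APlace F κ`, `φ : A[X] →+* F` with `∀ s, ∃ c, P.Res (φ s) c`; `y` a root of a monic `p` (`eval₂ φ y p = 0`) ⟹ `∃ c, P.Res y c`.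
  [`y = 0` trivial.  `P.ord_exists`: `Ord n y`.  `n ≥ 0`: `n = 0` `ord_zero_iff`, `n > 0` `res_of_pos`.  `n < 0`: `y⁻¹` has residue `0`;
  divide the equation by `y^d`: `1 + ∑_{i<d} φ(a_i) (y⁻¹)^(d-i) = 0`; residues: `1 = 0`.]
  The residues of `φ s = s(t)`: induction on `s` from `inV_A`, `res_t` (`inV_iff`), transported to the other places by
  `Ψinf_a0`, `Φinf_i0`, `τ_i0` + `hbase.isRes`.
  `res_of_isOLx0`: `s(t) f` integral ⟹ residue `c'`, `s(t)` has residue `≠ 0` (`res_s`): `APlace.res_div`.  `res_of_isPiOLx0`: `f = π z`.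
* (sat) `q1`: `coords1`: `y = ∑ a0 (c s) j1^s`, `IsOLx (c s)` by `q0`, transported by `a0` (as in (mem), multiply by `s(t)`), `hj1`.  `q2`: `coords`, `hj2`.
  `sat_i`: `f/π ∈ O_F`, so `IsPiOLx f` (`isPiOLx_iff`), `G.intX_of_smul` gives `z` integral with `f = π z`; `z = f/π`.
  (`S.cst S.π = algebraMap A F0 π = algebraMap E F0 (algebraMap A E π)`.)
* (res) `res2inf`: `f ∈ M2` with residue `c` at `∞`.  `coords` + `res_of_coords`: `c = ∑ cb_s (Jb^(l²))^s` = residue of `e = ∑ c_s j0^(l² s) ∈ F0`.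
  `IsOLx e` (`q0`).  `p` monic with `p(f) = 0`: the residue of `p(e)` at `R` = `∑ res(a_i(t)) c^i` = the residue of `p(f) = 0` at `∞`: so `InM (Φ' (p(e)))`
  (`inM_iff`), `IsPiOLx (p(e))` (`q0'`), `n0` gives `a` integral, `IsPiOLx (a - e)`, `res_of_isPiOLx0`: `a` has residue `c`.
  `res2mid`: the same with `e = ∑ c_s j0^s`;  `res1inf`: `coords1`, `e = ∑ c_s j0^(l s)` (`Ψinf j1 = inc (VO J)`, residue `Vκ Jb = Jb^l`).
-/

set_option autoImplicit false

open Polynomial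

namespace Fermat.Agent.S36.Mod

open Fermat.Agent.Crux.G Fermat.Agent.Crux.G.QLink Fermat.Agent.S36.Val Fermat.Agent.S36.R

variable {l : ℕ} {K F0 F1 F2 Ω O κ Ω1 O1 ι μ : Type*} [Field K] [Field F0] [Field F1]
    [Field F2] [Field Ω] [CommRing O] [Field κ] [Field Ω1] [CommRing O1] [Fintype ι]
    [Fintype μ]
variable {A E : Type*} [CommRing A] [IsDomain A] [IsDiscreteValuationRing A] [Field E] [CharZero E]
    [Algebra A E] [Algebra E F0] [Algebra E F1] [Algebra E F2] [Algebra A F0] [Algebra A F1]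
    [Algebra A F2] [IsScalarTower A E F0] [IsScalarTower A E F1] [IsScalarTower A E F2]
    [FiniteDimensional E F0] [FiniteDimensional E F1] [FiniteDimensional E F2]

/-- the inputs for the chart `t`. -/
structure QData (S : Setup l K F0 F1 F2 Ω O κ Ω1 O1 ι μ) (i₀ : ι) (b0 : F0 →+* F1)
    (w1 : F1 →+* F1) (w2 : F2 →+* F2) (π : A) (t : E) : Prop where
  hl : 2 ≤ l
  hπ : Irreducible π
  ht : Transcendental A t
  hgen : ∀ c : E, ∃ p q : A[X], q ≠ 0 ∧ c * aeval t q = aeval t p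
  -- algebra structures
  a0_E : ∀ c : E, S.a0 (algebraMap E F0 c) = algebraMap E F1 c
  al_E : ∀ c : E, S.al (algebraMap E F1 c) = algebraMap E F2 c
  cst_π : S.cst S.π = algebraMap A F0 π
  b0_A : ∀ a : A, b0 (algebraMap A F0 a) = algebraMap A F1 a
  be_A : ∀ a : A, S.be (algebraMap A F1 a) = algebraMap A F2 a
  w1_A : ∀ a : A, w1 (algebraMap A F1 a) = algebraMap A F1 a
  w2_A : ∀ a : A, w2 (algebraMap A F2 a) = algebraMap A F2 a
  -- identities for `b0`, `w1`, `w2`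
  Ψinf_b0 : ∀ c, S.Ψinf (b0 c) = S.V (S.Φ' c)
  Ψ0_b0 : ∀ c, S.Ψ0 (b0 c) = S.Φ' c
  al_b0 : ∀ c, S.al (b0 c) = S.be (S.a0 c)
  b0_cst : ∀ c, b0 (S.cst c) = S.a0 (S.cst c)
  Ψ0_eq : ∀ f, S.Ψ0 f = S.Ψinf (w1 f)
  Φ0_eq : ∀ f, S.Φ0 f = S.Φinf (w2 f)
  w1_t : w1 (algebraMap E F1 t) = b0 (algebraMap E F0 t)
  w2_t : w2 (algebraMap E F2 t) = S.be (b0 (algebraMap E F0 t))
  -- (D6)
  int_b0t : IntX A t (b0 (algebraMap E F0 t))
  -- expansions of the chart
  inV_A : ∀ a : A, InV S.inc S.red (S.Φ' (algebraMap A F0 a))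
  res_s : ∀ s : A[X], ¬ C π ∣ s → ∃ c, c ≠ 0 ∧ S.R.Res (algebraMap E F0 (aeval t s)) c
  res_t : ∃ c, S.R.Res (algebraMap E F0 t) c ∧ S.Vκ c = c ^ l ∧ ∀ k : ℕ, 1 < k → c ^ k ≠ c
  -- level `N`: q-link and normality
  q0 : ∀ f : F0, InV S.inc S.red (S.Φ' f) → IsOLx π t f
  q0' : ∀ f : F0, InM S.inc S.red (S.Φ' f) → IsPiOLx π t f
  n0 : ∀ e : F0, IsOLx π t e → ∀ P : A[X][X], P.Monic →
    IsPiOLx π t (P.eval₂ ((algebraMap E F0).comp ((aeval t : A[X] →ₐ[A] E) : A[X] →+* E)) e) →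
    ∃ a : F0, IntX A t a ∧ IsPiOLx π t (a - e)
  hj1 : IsOLx π t S.j1
  hj2 : IsOLx π t S.j2
  insep : ∀ g : F0, IntX A t g → ∀ c, S.R.Res g c →
    ∃ g' : F0, IntX A t g' ∧ ∃ c', S.R.Res g' c' ∧ S.Vκ c' = c ^ l
  hchar : ∀ n : ℕ, n ≠ 0 → ∃ (k : ℕ) (u : A), (n : A) * u = π ^ k

/-- (mem), general lemma: a ring hom fixing `A` and sending `t` to an element integral over `A[t]` preserves `IntX`. -/
theorem COmem_intX_map {A E F F' : Type*} [CommRing A] [Field E] [Field F] [Field F'] [Algebra A E]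
    [Algebra E F] [Algebra E F'] [Algebra A F] [Algebra A F'] [IsScalarTower A E F]
    [IsScalarTower A E F'] (φ : F →+* F')
    (hφA : ∀ a : A, φ (algebraMap A F a) = algebraMap A F' a) {t : E} {f : F}
    (ht : IntX A t (φ (algebraMap E F t))) (hf : IntX A t f) : IntX A t (φ f) := by
  rw [intX_iff] at hf
  obtain ⟨p, hp, hroot⟩ := hf
  have hcomp : φ.comp ((algebraMap E F).comp ((aeval t : A[X] →ₐ[A] E) : A[X] →+* E)) =
      (algebraMap F' F').comp
        ((aeval (φ (algebraMap E F t)) : A[X] →ₐ[A] F') : A[X] →+* F') := by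
    apply Polynomial.ringHom_ext
    · intro a
      simp [← IsScalarTower.algebraMap_apply, hφA]
    · simp
  have h1 : IntX A (φ (algebraMap E F t)) (φ f) := by
    rw [intX_iff]
    refine ⟨p, hp, ?_⟩
    have := congrArg φ hroot
    rw [Polynomial.hom_eval₂, hcomp, map_zero] at this
    exact this
  exact (Fermat.Agent.SS.GM2.intX_algebraMap_iff t _).mp
    (Fermat.Agent.SS.GM2.IntX.trans ((Fermat.Agent.SS.GM2.intX_algebraMap_iff t _).mpr ht) h1)

namespace QData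

variable {S : Setup l K F0 F1 F2 Ω O κ Ω1 O1 ι μ} {i₀ : ι} {b0 : F0 →+* F1}
    {w1 : F1 →+* F1} {w2 : F2 →+* F2} {π : A} {t : E} (D : QData S i₀ b0 w1 w2 π t)

include D

/-! ### (mem)   task `S36/CO-mem` -/

theorem a0_mem (f : F0) (hf : IntX A t f) : IntX A t (S.a0 f) := by
  refine COmem_intX_map S.a0 (fun a => ?_) ?_ hf
  · rw [IsScalarTower.algebraMap_apply A E F0, D.a0_E, ← IsScalarTower.algebraMap_apply]
  · rw [D.a0_E]
    exact intX_self t

theorem b0_mem (f : F0) (hf : IntX A t f) : IntX A t (b0 f) := by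
  exact COmem_intX_map b0 D.b0_A D.int_b0t hf

theorem al_mem (f : F1) (hf : IntX A t f) : IntX A t (S.al f) := by
  refine COmem_intX_map S.al (fun a => ?_) ?_ hf
  · rw [IsScalarTower.algebraMap_apply A E F1, D.al_E, ← IsScalarTower.algebraMap_apply]
  · rw [D.al_E]
    exact intX_self t

theorem be_mem (f : F1) (hf : IntX A t f) : IntX A t (S.be f) := by
  refine COmem_intX_map S.be D.be_A ?_ hf
  rw [← D.a0_E, ← D.al_b0]
  exact D.al_mem _ D.int_b0t

theorem w1_mem (f : F1) (hf : IntX A t f) : IntX A t (w1 f) := by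
  refine COmem_intX_map w1 D.w1_A ?_ hf
  rw [D.w1_t]
  exact D.int_b0t

theorem w2_mem (f : F2) (hf : IntX A t f) : IntX A t (w2 f) := by
  refine COmem_intX_map w2 D.w2_A ?_ hf
  rw [D.w2_t]
  exact D.be_mem _ D.int_b0t

theorem isOLx_a0 (f : F0) (hf : IsOLx π t f) : IsOLx π t (S.a0 f) := by
  rw [isOLx_iff] at hf ⊢
  obtain ⟨s, hs, h⟩ := hf
  refine ⟨s, hs, ?_⟩
  have := D.a0_mem _ h
  rwa [map_mul, D.a0_E] at this

theorem isOLx_al (f : F1) (hf : IsOLx π t f) : IsOLx π t (S.al f) := by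
  rw [isOLx_iff] at hf ⊢
  obtain ⟨s, hs, h⟩ := hf
  refine ⟨s, hs, ?_⟩
  have := D.al_mem _ h
  rwa [map_mul, D.al_E] at this

/-! ### (int)   task `S36/CO-int` -/

omit D [IsDomain A] [IsDiscreteValuationRing A] in
/-- polynomial expressions in integral elements are integral. -/
theorem COint_res_eval₂ {F κ' R' : Type*} [Field F] [Field κ'] [CommRing R'] (P : APlace F κ')
    (φ : R' →+* F) (hφ : ∀ s, ∃ c, P.Res (φ s) c) (z : F) (hz : ∃ c, P.Res z c) (q : R'[X]) :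
    ∃ c, P.Res (eval₂ φ z q) c := by
  induction q using Polynomial.induction_on' with
  | add p q hp hq =>
    obtain ⟨c, hc⟩ := hp
    obtain ⟨d, hd⟩ := hq
    rw [eval₂_add]
    exact ⟨_, P.res_add hc hd⟩
  | monomial n a =>
    obtain ⟨c, hc⟩ := hφ a
    obtain ⟨d, hd⟩ := hz
    rw [eval₂_monomial]
    exact ⟨_, P.res_mul hc (P.res_pow hd n)⟩

omit D [IsDomain A] [IsDiscreteValuationRing A] in
/-- an `APlace` is integrally closed. -/
theorem COint_res_of_root {F κ' R' : Type*} [Field F] [Field κ'] [CommRing R'] (P : APlace F κ')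
    (φ : R' →+* F) (hφ : ∀ s, ∃ c, P.Res (φ s) c) (y : F) (p : R'[X]) (hp : p.Monic)
    (hy : eval₂ φ y p = 0) : ∃ c, P.Res y c := by
  by_cases hy0 : y = 0
  · exact ⟨0, hy0 ▸ P.res_zero⟩
  obtain ⟨n, hn⟩ := P.ord_exists y hy0
  rcases lt_trichotomy n 0 with h | h | h
  · exfalso
    have hz : P.Res y⁻¹ 0 := P.res_of_pos (P.ord_inv hn) (by omega)
    let _ : Invertible y := invertibleOfNonzero hy0
    have h1 : eval₂ φ y⁻¹ p.reverse = 0 := by
      have := (eval₂_reverse_eq_zero_iff φ y p).2 hy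
      rwa [invOf_eq_inv] at this
    have h2 : p.reverse.coeff 0 = 1 := by rw [coeff_zero_reverse]; exact hp
    obtain ⟨c, hc⟩ := COint_res_eval₂ P φ hφ y⁻¹ ⟨0, hz⟩ p.reverse.divX
    have h3 : eval₂ φ y⁻¹ p.reverse = eval₂ φ y⁻¹ p.reverse.divX * y⁻¹ + 1 := by
      conv_lhs => rw [← divX_mul_X_add p.reverse]
      rw [eval₂_add, eval₂_mul, eval₂_X, eval₂_C, h2, map_one]
    have h4 := P.res_add (P.res_mul hc hz) P.res_one
    rw [← h3, h1, mul_zero, zero_add] at h4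
    exact zero_ne_one (P.res_unique P.res_zero h4)
  · subst h
    obtain ⟨c, -, hc⟩ := P.ord_zero_iff.1 hn
    exact ⟨c, hc⟩
  · exact ⟨0, P.res_of_pos hn h⟩

/-- the residues of `s(t)`. -/
theorem COint_res_aeval (s : A[X]) : ∃ c, S.R.Res (algebraMap E F0 (aeval t s)) c := by
  have h1 : algebraMap E F0 (aeval t s) = eval₂ (algebraMap A F0) (algebraMap E F0 t) s := by
    rw [aeval_def, hom_eval₂, ← IsScalarTower.algebraMap_eq]
  rw [h1]
  obtain ⟨c, hc, -⟩ := D.res_t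
  exact COint_res_eval₂ S.R (algebraMap A F0) (fun a => inV_iff.1 (D.inV_A a)) _ ⟨c, hc⟩ s

theorem int0 (f : F0) (hf : IntX A t f) : ∃ c, S.R.Res f c := by
  obtain ⟨p, hp, hpf⟩ := (intX_iff t f).1 hf
  exact COint_res_of_root S.R _ (fun s => D.COint_res_aeval s) f p hp hpf

theorem int1inf (f : F1) (hf : IntX A t f) : ∃ c, S.Qinf.Res f c := by
  obtain ⟨p, hp, hpf⟩ := (intX_iff t f).1 hf
  refine COint_res_of_root S.Qinf _ (fun s => ?_) f p hp hpf
  obtain ⟨c, hc⟩ := D.COint_res_aeval s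
  refine ⟨c, ?_⟩
  show IsRes S.inc S.red (S.Ψinf (algebraMap E F1 (aeval t s))) c
  rw [← D.a0_E, S.Ψinf_a0]
  exact hc

theorem int2inf (f : F2) (hf : IntX A t f) : ∃ c, S.Pinf.Res f c := by
  obtain ⟨p, hp, hpf⟩ := (intX_iff t f).1 hf
  refine COint_res_of_root S.Pinf _ (fun s => ?_) f p hp hpf
  obtain ⟨c, hc⟩ := D.COint_res_aeval s
  refine ⟨c, ?_⟩
  show IsRes S.inc S.red (S.Φinf (algebraMap E F2 (aeval t s))) c
  rw [← D.al_E, ← D.a0_E, S.Φinf_al, S.Ψinf_a0]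
  exact hc

theorem int2mid (f : F2) (hf : IntX A t f) : ∃ c, (S.Pm i₀).Res f c := by
  obtain ⟨p, hp, hpf⟩ := (intX_iff t f).1 hf
  refine COint_res_of_root (S.Pm i₀) _ (fun s => ?_) f p hp hpf
  obtain ⟨c, hc⟩ := D.COint_res_aeval s
  refine ⟨c, ?_⟩
  show IsRes S.inc1 S.red1 (S.τ i₀ (algebraMap E F2 (aeval t s))) c
  rw [← D.al_E, ← D.a0_E, S.τ_al, S.Ψinf_a0]
  exact S.hbase.isRes hc

theorem res_of_isOLx0 (f : F0) (hf : IsOLx π t f) : ∃ c, S.R.Res f c := by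
  obtain ⟨s, hs, hsf⟩ := (isOLx_iff π t f).1 hf
  obtain ⟨c', hc'⟩ := D.int0 _ hsf
  obtain ⟨c, hc0, hc⟩ := D.res_s s hs
  have hne : algebraMap E F0 (aeval t s) ≠ 0 := S.R.ord_ne_zero (S.R.ord_of_res hc hc0)
  have h1 := S.R.res_div hc' hc hc0
  rw [mul_div_cancel_left₀ _ hne] at h1
  exact ⟨_, h1⟩

theorem res_of_isPiOLx0 (f : F0) (hf : IsPiOLx π t f) : S.R.Res f 0 := by
  obtain ⟨z, hz, rfl⟩ := (isPiOLx_iff π t f).1 hf
  obtain ⟨c, hc⟩ := D.res_of_isOLx0 z hz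
  have h1 : S.R.Res (algebraMap E F0 (algebraMap A E π)) 0 := by
    show IsRes S.inc S.red (S.Φ' (algebraMap E F0 (algebraMap A E π))) 0
    rw [← IsScalarTower.algebraMap_apply, ← D.cst_π, S.Φ'_π, ← S.P.red_unif]
    exact isRes_inc _
  have h2 := S.R.res_mul h1 hc
  rwa [zero_mul] at h2

/-! ### (sat)   task `S36/CO-sat` -/

/-- products in `O_L`. -/
theorem COsat_isOLx_mul {L : Type*} [Field L] [Algebra E L] {y z : L} (hy : IsOLx π t y)
    (hz : IsOLx π t z) : IsOLx π t (y * z) := by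
  letI := algL (A := A) L t
  exact IsOL.mul D.hπ.prime hy hz

/-- powers in `O_L`. -/
theorem COsat_isOLx_pow {L : Type*} [Field L] [Algebra E L] {y : L} (hy : IsOLx π t y) (n : ℕ) :
    IsOLx π t (y ^ n) := by
  letI := algL (A := A) L t
  exact IsOL.pow D.hπ.prime hy n

/-- finite sums of elements of `O_L`. -/
theorem COsat_isOLx_sum {L : Type*} [Field L] [Algebra E L] [FiniteDimensional E L] {J : Type*}
    (s : Finset J) (g : J → L) (h : ∀ j ∈ s, IsOLx π t (g j)) : IsOLx π t (∑ j ∈ s, g j) := by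
  classical
  induction s using Finset.induction_on with
  | empty =>
    rw [Finset.sum_empty]
    have h1 := IsOLx.sub D.hπ (isOLx_one (L := L) D.hπ (x := t)) (isOLx_one (L := L) D.hπ (x := t))
    rwa [sub_self] at h1
  | insert j s hj ih =>
    rw [Finset.sum_insert hj]
    exact IsOLx.add D.hπ (h j (Finset.mem_insert_self _ _))
      (ih fun i hi => h i (Finset.mem_insert_of_mem hi))

/-- saturation: `f ∈ M`, `f / π ∈ O_L` ⟹ `f / π ∈ M`. -/
theorem COsat_aux {L : Type*} [Field L] [Algebra E L] [FiniteDimensional E L] (f p : L)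
    (hp : p = algebraMap E L (algebraMap A E π)) (hf : IntX A t f) (h : IsOLx π t (f / p)) :
    IntX A t (f / p) := by
  by_cases hp0 : p = 0
  · have h1 : f / p = f * 0 := by rw [hp0, div_zero, mul_zero]
    rw [h1]
    refine IntX.mul hf ?_
    refine (intX_iff t (0 : L)).2 ⟨X, monic_X, ?_⟩
    rw [eval₂_X]
  · have hPi : IsPiOLx π t f := (isPiOLx_iff π t f).2 ⟨f / p, h, by
      rw [← hp, mul_div_cancel₀ _ hp0]⟩
    obtain ⟨z, hz, hfz⟩ := intX_of_smul D.hπ D.ht D.hgen hf hPi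
    have h3 : f / p = z := by
      rw [hfz, ← hp, mul_div_cancel_left₀ _ hp0]
    rw [h3]
    exact hz

theorem q1 (f : F1) (hf : S.Int2 f) : IsOLx π t f := by
  obtain ⟨c, hc, hfc⟩ := S.coords1 D.hl f hf
  rw [hfc]
  refine D.COsat_isOLx_sum _ _ fun s _ => ?_
  exact D.COsat_isOLx_mul (D.isOLx_a0 _ (D.q0 _ (hc s)))
    (D.COsat_isOLx_pow D.hj1 s)

theorem q2 (f : F2) (hf : S.Int3 i₀ f) : IsOLx π t f := by
  obtain ⟨c, hc, hfc⟩ := S.coords D.hl i₀ f hf
  rw [hfc]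
  refine D.COsat_isOLx_sum _ _ fun s _ => ?_
  exact D.COsat_isOLx_mul (D.isOLx_al _ (D.isOLx_a0 _ (D.q0 _ (hc s))))
    (D.COsat_isOLx_pow D.hj2 s)

theorem sat0 (f : F0) (hf : IntX A t f) (h : InV S.inc S.red (S.Φ' (f / S.cst S.π))) :
    IntX A t (f / S.cst S.π) := by
  refine D.COsat_aux f _ ?_ hf (D.q0 _ h)
  rw [D.cst_π, IsScalarTower.algebraMap_apply A E F0]

theorem sat1 (f : F1) (hf : IntX A t f) (h : S.Int2 (f / S.a0 (S.cst S.π))) :
    IntX A t (f / S.a0 (S.cst S.π)) := by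
  refine D.COsat_aux f _ ?_ hf (D.q1 _ h)
  rw [D.cst_π, IsScalarTower.algebraMap_apply A E F0, D.a0_E]

theorem sat2 (f : F2) (hf : IntX A t f) (h : S.Int3 i₀ (f / S.c2 S.π)) :
    IntX A t (f / S.c2 S.π) := by
  refine D.COsat_aux f _ ?_ hf (D.q2 _ h)
  show S.al (S.a0 (S.cst S.π)) = _
  rw [D.cst_π, IsScalarTower.algebraMap_apply A E F0, D.a0_E, D.al_E]

/-! ### (res)   task `S36/CO-res` -/

/-- simultaneous residues of `q(e)` at `R` and of `q(f)` at a place `P` above `R`. -/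
theorem COres_eval₂ {F : Type*} [Field F] [Algebra E F] (P : APlace F κ)
    (hP : ∀ (s : A[X]) (c : κ), S.R.Res (algebraMap E F0 (aeval t s)) c →
      P.Res (algebraMap E F (aeval t s)) c)
    (f : F) (e : F0) (c : κ) (hf : P.Res f c) (he : S.R.Res e c) (q : A[X][X]) :
    ∃ d, S.R.Res (eval₂ ((algebraMap E F0).comp ((aeval t : A[X] →ₐ[A] E) : A[X] →+* E)) e q) d ∧
      P.Res (eval₂ ((algebraMap E F).comp ((aeval t : A[X] →ₐ[A] E) : A[X] →+* E)) f q) d := by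
  induction q using Polynomial.induction_on' with
  | add p q hp hq =>
    obtain ⟨c1, h1, h1'⟩ := hp
    obtain ⟨c2, h2, h2'⟩ := hq
    rw [eval₂_add, eval₂_add]
    exact ⟨_, S.R.res_add h1 h2, P.res_add h1' h2'⟩
  | monomial n a =>
    obtain ⟨ca, hca⟩ := D.COint_res_aeval a
    rw [eval₂_monomial, eval₂_monomial]
    exact ⟨_, S.R.res_mul hca (S.R.res_pow he n), P.res_mul (hP a ca hca) (P.res_pow hf n)⟩

/-- the core of (res): an element of `O_{F0}` with the right residue can be made integral. -/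
theorem COres_core {F : Type*} [Field F] [Algebra E F] (P : APlace F κ)
    (hP : ∀ (s : A[X]) (c : κ), S.R.Res (algebraMap E F0 (aeval t s)) c →
      P.Res (algebraMap E F (aeval t s)) c)
    (f : F) (hf : IntX A t f) (c : κ) (hc : P.Res f c) (e : F0) (he : S.R.Res e c) :
    ∃ g : F0, IntX A t g ∧ S.R.Res g c := by
  obtain ⟨p, hp, hpf⟩ := (intX_iff t f).1 hf
  obtain ⟨d, hd, hd'⟩ := D.COres_eval₂ P hP f e c hc he p
  rw [hpf] at hd'
  have hd0 : d = 0 := P.res_unique hd' P.res_zero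
  subst hd0
  have heO : IsOLx π t e := D.q0 e (IsRes.inV he)
  obtain ⟨a, ha, hae⟩ := D.n0 e heO p hp (D.q0' _ (inM_iff.2 hd))
  refine ⟨a, ha, ?_⟩
  have h1 := S.R.res_add (D.res_of_isPiOLx0 _ hae) he
  rwa [sub_add_cancel, zero_add] at h1

theorem COres_Qinf (s : A[X]) (c : κ) (h : S.R.Res (algebraMap E F0 (aeval t s)) c) :
    S.Qinf.Res (algebraMap E F1 (aeval t s)) c := by
  show IsRes S.inc S.red (S.Ψinf (algebraMap E F1 (aeval t s))) c
  rw [← D.a0_E, S.Ψinf_a0]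
  exact h

theorem COres_Pinf (s : A[X]) (c : κ) (h : S.R.Res (algebraMap E F0 (aeval t s)) c) :
    S.Pinf.Res (algebraMap E F2 (aeval t s)) c := by
  show IsRes S.inc S.red (S.Φinf (algebraMap E F2 (aeval t s))) c
  rw [← D.al_E, ← D.a0_E, S.Φinf_al, S.Ψinf_a0]
  exact h

theorem COres_Pm (s : A[X]) (c : κ) (h : S.R.Res (algebraMap E F0 (aeval t s)) c) :
    (S.Pm i₀).Res (algebraMap E F2 (aeval t s)) c := by
  show IsRes S.inc1 S.red1 (S.τ i₀ (algebraMap E F2 (aeval t s))) c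
  rw [← D.al_E, ← D.a0_E, S.τ_al, S.Ψinf_a0]
  exact S.hbase.isRes h

theorem COres_int2 (f : F1) (hf : IntX A t f) : S.Int2 f := by
  obtain ⟨c, hc⟩ := D.int1inf f hf
  obtain ⟨c', hc'⟩ := D.int1inf _ (D.w1_mem f hf)
  refine ⟨IsRes.inV hc, ?_⟩
  rw [D.Ψ0_eq]
  exact IsRes.inV hc'

theorem COres_int3 (f : F2) (hf : IntX A t f) : S.Int3 i₀ f := by
  obtain ⟨c, hc⟩ := D.int2inf f hf
  obtain ⟨c1, hc1⟩ := D.int2mid f hf
  obtain ⟨c', hc'⟩ := D.int2inf _ (D.w2_mem f hf)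
  refine ⟨IsRes.inV hc, IsRes.inV hc1, ?_⟩
  rw [D.Φ0_eq]
  exact IsRes.inV hc'

theorem res1inf (f : F1) (hf : IntX A t f) (c : κ) (hc : S.Qinf.Res f c) :
    ∃ g : F0, IntX A t g ∧ S.R.Res g c := by
  obtain ⟨d, hd, hfd⟩ := S.coords1 D.hl f (D.COres_int2 f hf)
  choose db hdb using fun s => inV_iff.1 (hd s)
  have h1 : IsRes S.inc S.red (S.Ψinf f)
      (∑ s ∈ Finset.range (l + 1), db s * (S.red S.J ^ l) ^ s) := by
    rw [hfd, map_sum]
    refine IsRes.sum _ fun s _ => ?_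
    rw [map_mul, map_pow, S.Ψinf_a0, S.Ψinf_j1, ← S.hJ, ← S.hV.comm_red]
    exact (hdb s).mul ((isRes_inc _).pow s)
  have hc' : IsRes S.inc S.red (S.Ψinf f) c := hc
  have hcc := hc'.unique S.P.inj h1
  refine D.COres_core S.Qinf D.COres_Qinf f hf c hc
    (∑ s ∈ Finset.range (l + 1), d s * (S.j0 ^ l) ^ s) ?_
  show IsRes S.inc S.red (S.Φ' _) c
  rw [hcc, map_sum]
  refine IsRes.sum _ fun s _ => ?_
  rw [map_mul, map_pow, map_pow, S.Φ'_j0]
  exact (hdb s).mul (((isRes_inc _).pow _).pow s)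

theorem res2inf (f : F2) (hf : IntX A t f) (c : κ) (hc : S.Pinf.Res f c) :
    ∃ g : F0, IntX A t g ∧ S.R.Res g c := by
  obtain ⟨d, hd, hfd⟩ := S.coords D.hl i₀ f (D.COres_int3 f hf)
  choose db hdb using fun s => inV_iff.1 (hd s)
  have h1 := (S.res_of_coords d db (l ^ 2 + (l - 1) + 1) hdb).1
  rw [← hfd] at h1
  have hc' : IsRes S.inc S.red (S.Φinf f) c := hc
  have hcc := hc'.unique S.P.inj h1
  refine D.COres_core S.Pinf D.COres_Pinf f hf c hc
    (∑ s ∈ Finset.range (l ^ 2 + (l - 1) + 1), d s * (S.j0 ^ (l ^ 2)) ^ s) ?_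
  show IsRes S.inc S.red (S.Φ' _) c
  rw [hcc, map_sum]
  refine IsRes.sum _ fun s _ => ?_
  rw [map_mul, map_pow, map_pow, S.Φ'_j0]
  exact (hdb s).mul (((isRes_inc _).pow _).pow s)

theorem res2mid (f : F2) (hf : IntX A t f) (c : κ) (hc : (S.Pm i₀).Res f c) :
    ∃ g : F0, IntX A t g ∧ S.R.Res g c := by
  obtain ⟨d, hd, hfd⟩ := S.coords D.hl i₀ f (D.COres_int3 f hf)
  choose db hdb using fun s => inV_iff.1 (hd s)
  have h1 := (S.res_of_coords d db (l ^ 2 + (l - 1) + 1) hdb).2.1 i₀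
  rw [← hfd] at h1
  have hc' : IsRes S.inc1 S.red1 (S.τ i₀ f) c := hc
  have hcc := hc'.unique S.P1.inj h1
  refine D.COres_core (S.Pm i₀) D.COres_Pm f hf c hc
    (∑ s ∈ Finset.range (l ^ 2 + (l - 1) + 1), d s * S.j0 ^ s) ?_
  show IsRes S.inc S.red (S.Φ' _) c
  rw [hcc, map_sum]
  refine IsRes.sum _ fun s _ => ?_
  rw [map_mul, map_pow, S.Φ'_j0]
  exact (hdb s).mul ((isRes_inc _).pow s)

/-! ### the chart -/

/-- **the chart `M_i = Mx A F_i t`.** -/
theorem chart : Chart S i₀ b0 w1 w2 (Mx A F0 t).toSubring (Mx A F1 t).toSubring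
    (Mx A F2 t).toSubring where
  Ψinf_b0 := D.Ψinf_b0
  Ψ0_b0 := D.Ψ0_b0
  al_b0 := D.al_b0
  b0_cst := D.b0_cst
  Ψ0_eq := D.Ψ0_eq
  Φ0_eq := D.Φ0_eq
  a0_mem := D.a0_mem
  b0_mem := D.b0_mem
  al_mem := D.al_mem
  be_mem := D.be_mem
  w1_mem := D.w1_mem
  w2_mem := D.w2_mem
  π_mem := by
    rw [D.cst_π]
    exact (Mx A F0 t).algebraMap_mem π
  int0 := D.int0
  int1inf := D.int1inf
  int2inf := D.int2inf
  int2mid := D.int2mid
  sat0 := D.sat0
  sat1 := D.sat1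
  sat2 := D.sat2
  res1inf f hf c hc := D.res1inf f hf c hc
  res2inf f hf c hc := D.res2inf f hf c hc
  res2mid f hf c hc := D.res2mid f hf c hc
  exX := by
    obtain ⟨c, h1, h2, h3⟩ := D.res_t
    exact ⟨algebraMap E F0 t, intX_self t, c, h1, h2, h3⟩
  insep g hg c hc := by
    obtain ⟨g', h1, c', h2, h3⟩ := D.insep g hg c hc
    exact ⟨g', h1, c', h2, h3⟩
  hchar n hn := by
    obtain ⟨k, u, hu⟩ := D.hchar n hn
    refine ⟨k, algebraMap A F0 u, (Mx A F0 t).algebraMap_mem u, ?_⟩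
    rw [D.cst_π, ← map_pow, ← hu, map_mul, map_natCast]

end QData

end Fermat.Agent.S36.Mod
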