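import Fermat.Agent.S36.Mod.Chart.Models

/-!
# S36 / Mod / Chart / Tower : `R.Tower` and `R.TowerF` of a chart

`Chart.tower` : the remaining inputs are hypotheses: `R` is not a field, residue fields of `R` algebraically closed, finiteness of the four maps,
the two unramifiedness statements (helper64).  `Chart.towerF` : degrees and the two discriminants.
-/

set_option autoImplicit false

namespace Fermat.Agent.S36.Mod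

open Fermat.Agent.Crux.G.QLink Fermat.Agent.S36.Val Fermat.Agent.S36.R Fermat.Agent.S36.Norm

variable {l : ℕ} {K F0 F1 F2 Ω O κ Ω1 O1 ι μ : Type*} [Field K] [Field F0] [Field F1]
    [Field F2] [Field Ω] [CommRing O] [Field κ] [Field Ω1] [CommRing O1] [Fintype ι]
    [Fintype μ]

namespace Chart

variable {S : Setup l K F0 F1 F2 Ω O κ Ω1 O1 ι μ} {i₀ : ι} {b0 : F0 →+* F1}
    {w1 : F1 →+* F1} {w2 : F2 →+* F2}
    {M0 : Subring F0} {M1 : Subring F1} {M2 : Subring F2}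
    (C : Chart S i₀ b0 w1 w2 M0 M1 M2)

/-- the extra inputs of `R.Tower`. -/
structure Extra (hl : 2 ≤ l) : Prop where
  notField : ¬ IsField C.Rr
  algClosed : ∀ (𝔫 : Ideal C.Rr) [𝔫.IsMaximal], @IsAlgClosed (C.Rr ⧸ 𝔫) (Ideal.Quotient.field 𝔫)
  α_fin : C.α.Finite
  β_fin : C.β.Finite
  p1_fin : C.p1.Finite
  p2_fin : C.p2.Finite
  unr1 : ∀ z : Ideal M1, z.IsMaximal → (C.m1 hl).Thru z 0 → (C.m1 hl).Thru z 1 →
    ∀ 𝔮 : Ideal M0, 𝔮.IsPrime → 𝔮 ≤ z.comap C.α → C.pi ∉ 𝔮 →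
      ∀ y : M1, y ^ 2 ∈ 𝔮.map C.α → ∃ s, s ∉ 𝔮 ∧ C.α s * y ∈ 𝔮.map C.α
  unr2 : ∀ z : Ideal M1, z.IsMaximal → (C.m1 hl).Thru z 0 → ¬ (C.m1 hl).Thru z 1 →
    ∀ 𝔮 : Ideal M1, 𝔮.IsPrime → 𝔮 ≤ z → C.α C.pi ∉ 𝔮 →
      ∀ y : M2, y ^ 2 ∈ 𝔮.map C.p1 → ∃ s, s ∉ 𝔮 ∧ C.p1 s * y ∈ 𝔮.map C.p1

/-- **the tower of a chart.** -/
noncomputable def tower (hl : 2 ≤ l) (X : C.Extra hl) :
    Tower (R := C.Rr) l C.pi C.α C.β C.p1 C.p2 where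
  m0 := C.m0
  m1 := C.m1 hl
  m2 := C.m2 hl
  Fr := C.Fr
  notField := X.notField
  Fr_inj := C.Fr_inj
  Fr_insep := C.Fr_insep
  e0 := rfl
  e1 _ := rfl
  e2_0 := rfl
  e2_1 := rfl
  e2_2 := rfl
  beta_pi := C.beta_pi
  comm := C.comm
  α_fin := X.α_fin
  β_fin := X.β_fin
  p1_fin := X.p1_fin
  p2_fin := X.p2_fin
  α_inj := C.α_inj
  β_inj := C.β_inj
  p1_inj := C.p1_inj
  p2_inj := C.p2_inj
  r1_0_α := C.r1_0_α
  r1_0_β := C.r1_0_β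
  r1_1_α := C.r1_1_α
  r1_1_β := C.r1_1_β
  r2_0_p1 := C.r2_0_p1
  r2_1_p1 := C.r2_1_p1
  r2_2_p1 := C.r2_2_p1
  r2_0_p2 := C.r2_0_p2
  r2_1_p2 := C.r2_1_p2
  r2_2_p2 := C.r2_2_p2
  hchar := C.hchar'
  algClosed := X.algClosed
  unr1 := X.unr1
  unr2 := X.unr2

/-- **degrees and discriminants.** -/
theorem towerF (hl : 2 ≤ l) (X : C.Extra hl)
    (deg_α : degHom S.a0 = l + 1) (deg_1 : degHom S.al = l) (deg_2 : degHom S.be = l)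
    (db1 : ∃ (θ : M1) (δ : M0), C.ρ0 δ ≠ 0 ∧
      discrHom S.a0 (l + 1) (θ : F1) = ((C.pi ^ l * δ : M0) : F0))
    (db2 : ∃ (θ : M2) (δ : M1), C.ρ1 0 δ ≠ 0 ∧
      discrHom S.al l (θ : F2) = ((C.α C.pi ^ (l - 2) * δ : M1) : F1))
    (nm1 : ∀ a : M2, ∃ b : M1, (b : F1) = normHom S.al (a : F2) ∧
      C.ρ1 0 b = C.ρ2 0 a * C.ρ2 1 a ^ (l - 1) ∧ C.Fr (C.ρ1 1 b) = C.ρ2 2 a ^ l)
    (nm2 : ∀ a : M2, ∃ b : M1, (b : F1) = normHom S.be (a : F2) ∧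
      C.Fr (C.ρ1 0 b) = C.ρ2 0 a ^ l ∧ C.ρ1 1 b = C.ρ2 2 a * C.ρ2 1 a ^ (l - 1)) :
    TowerF l (C.tower hl X) S.a0 S.al S.be where
  αF_map _ := rfl
  φ1_map _ := rfl
  φ2_map _ := rfl
  deg_α := deg_α
  deg_1 := deg_1
  deg_2 := deg_2
  db1 := db1
  db2 := db2
  nm1 := nm1
  nm2 := nm2

end Chart

end Fermat.Agent.S36.Mod
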